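import Fermat.Prelude.Def_ModularCurve_X0ModL
import Fermat.Prelude.Def_AlgebraicCurve_BaseChangeGalois
import Mathlib.RingTheory.PowerSeries.Expand
import Mathlib.Algebra.CharP.Frobenius

/-!
# Coefficient automorphisms of the modular function field, and the Frobenius of `k((q))`
-/

set_option autoImplicit false

noncomputable section

namespace Fermat.Agent.RED.Spec

open ModularCurve AlgebraicCurve IntermediateField

section FrobSeries

theorem qExpand_ofPowerSeries {R : Type*} [CommRing R] (n : ℕ) [NeZero n] (f : PowerSeries R) :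
    qExpand R n (HahnSeries.ofPowerSeries ℤ R f) =
      HahnSeries.ofPowerSeries ℤ R (PowerSeries.expand n (NeZero.ne n) f) := by
  ext i
  rcases lt_or_ge i 0 with hi | hi
  · rw [ofPowerSeries_coeff_of_neg _ hi]
    by_cases hd : (n : ℤ) ∣ i
    · obtain ⟨m, rfl⟩ := hd
      rw [qExpand_coeff_mul, ofPowerSeries_coeff_of_neg]
      by_contra hm
      exact absurd hi (not_lt.mpr (mul_nonneg (Int.natCast_nonneg n) (not_lt.mp hm)))
    · exact qExpand_coeff_of_not_dvd n _ hd
  · lift i to ℕ using hi
    rw [HahnSeries.ofPowerSeries_apply_coeff, PowerSeries.coeff_expand]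
    split_ifs with hd
    · obtain ⟨m, rfl⟩ := hd
      rw [Nat.cast_mul, qExpand_coeff_mul, HahnSeries.ofPowerSeries_apply_coeff,
        Nat.mul_div_cancel_left _ (Nat.pos_of_ne_zero (NeZero.ne n))]
    · exact qExpand_coeff_of_not_dvd n _ (by exact_mod_cast hd)

/-- The `ℓ`-th power in `k((q))` in characteristic `ℓ`: Frobenius on coefficients and `q ↦ q^ℓ`. -/
theorem laurentSeries_pow_char {k : Type*} [CommRing k] (ℓ : ℕ) [NeZero ℓ] [Fact ℓ.Prime]
    [CharP k ℓ] (x : LaurentSeries k) :
    x ^ ℓ = qExpand k ℓ (coeffMap (frobenius k ℓ) x) := by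
  haveI : ExpChar k ℓ := ExpChar.prime Fact.out
  have key : ∀ f : PowerSeries k, (HahnSeries.ofPowerSeries ℤ k f) ^ ℓ =
      qExpand k ℓ (coeffMap (frobenius k ℓ) (HahnSeries.ofPowerSeries ℤ k f)) := by
    intro f
    rw [coeffMap_ofPowerSeries, qExpand_ofPowerSeries, ← map_pow]
    congr 1
    rw [← PowerSeries.map_expand]
    exact (MvPowerSeries.map_frobenius_expand ℓ (NeZero.ne ℓ)).symm
  obtain ⟨a, f, rfl⟩ : ∃ (a : ℤ) (f : PowerSeries k),
      x = HahnSeries.single a 1 * HahnSeries.ofPowerSeries ℤ k f :=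
    ⟨_, _, (LaurentSeries.single_order_mul_powerSeriesPart x).symm⟩
  rw [mul_pow, key, map_mul (coeffMap (frobenius k ℓ)), map_mul (qExpand k ℓ), coeffMap_single,
    qExpand_single, HahnSeries.single_pow, map_one (frobenius k ℓ), one_pow, nsmul_eq_mul]

end FrobSeries

section CoeffAut

variable {k : Type*} [Field k] (N : ℕ)

theorem coeffMap_mem_fullC (φ : k →+* k) {x : LaurentSeries k}
    (hx : x ∈ modularFunctionFieldFullC k N) :
    coeffMap φ x ∈ modularFunctionFieldFullC k N := by
  change x ∈ IntermediateField.adjoin k (divisorExpansionsC k N) at hx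
  induction hx using IntermediateField.adjoin_induction with
  | mem y hy =>
    obtain ⟨d, hne, hdvd, rfl⟩ := hy
    haveI := hne
    rw [coeffMap_qExpand, coeffMap_jqModC]
    exact jqModCd_mem_full k N hdvd
  | algebraMap a =>
    rw [algebraMap_laurentSeries_eq_single, coeffMap_single, ← algebraMap_laurentSeries_eq_single]
    exact (modularFunctionFieldFullC k N).algebraMap_mem _
  | add x y _ _ hx hy => rw [map_add]; exact add_mem hx hy
  | inv x _ hx => rw [map_inv₀]; exact inv_mem hx
  | mul x y _ _ hx hy => rw [map_mul]; exact mul_mem hx hy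

/-- The ring automorphism of `k(X₀(N))` given by an automorphism of `k` acting on coefficients. -/
def coeffRingAut (φ : k ≃+* k) :
    modularFunctionFieldFullC k N ≃+* modularFunctionFieldFullC k N where
  toFun x := ⟨coeffMap (φ : k →+* k) x, coeffMap_mem_fullC N _ x.2⟩
  invFun x := ⟨coeffMap (φ.symm : k →+* k) x, coeffMap_mem_fullC N _ x.2⟩
  left_inv x := Subtype.ext <| by
    show coeffMap (φ.symm : k →+* k) (coeffMap (φ : k →+* k) (x : LaurentSeries k)) = _
    rw [coeffMap_coeffMap, coeffMap_congr (g := RingHom.id k) (RingHom.ext φ.symm_apply_apply),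
      coeffMap_id]
  right_inv x := Subtype.ext <| by
    show coeffMap (φ : k →+* k) (coeffMap (φ.symm : k →+* k) (x : LaurentSeries k)) = _
    rw [coeffMap_coeffMap, coeffMap_congr (g := RingHom.id k) (RingHom.ext φ.apply_symm_apply),
      coeffMap_id]
  map_mul' x y := Subtype.ext (map_mul (coeffMap (φ : k →+* k)) _ _)
  map_add' x y := Subtype.ext (map_add (coeffMap (φ : k →+* k)) _ _)

/-- An automorphism of `k` acting on coefficients, as a semilinear automorphism of `k(X₀(N))`. -/
def coeffAut (φ : k ≃+* k) : SemilinearAut k (modularFunctionFieldFullC k N) :=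
  ⟨(coeffRingAut N φ, φ), fun a => Subtype.ext (coeffMap_algebraMap (φ : k →+* k) a)⟩

@[simp]
theorem coe_coeffAut_smul (φ : k ≃+* k) (x : modularFunctionFieldFullC k N) :
    ((coeffAut N φ • x : modularFunctionFieldFullC k N) : LaurentSeries k) =
      coeffMap (φ : k →+* k) (x : LaurentSeries k) := rfl

theorem coeffAut_one : coeffAut N (RingEquiv.refl k) = 1 := by
  refine Subtype.ext (Prod.ext (RingEquiv.ext fun x => Subtype.ext ?_) rfl)
  show coeffMap ((RingEquiv.refl k : k ≃+* k) : k →+* k) (x : LaurentSeries k) = _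
  exact (coeffMap_congr (g := RingHom.id k) (RingHom.ext fun _ => rfl) _).trans (coeffMap_id _)

theorem coeffAut_symm (φ : k ≃+* k) : coeffAut N φ.symm = (coeffAut N φ)⁻¹ := rfl

theorem coeffAut_smul_jqModC (φ : k ≃+* k) :
    coeffAut N φ • (⟨jqModC k, jqModC_mem_full k N⟩ : modularFunctionFieldFullC k N) =
      ⟨jqModC k, jqModC_mem_full k N⟩ :=
  Subtype.ext (coeffMap_jqModC _)

theorem coeffAut_smul_algebraMap (φ : k ≃+* k) (a : k) :
    coeffAut N φ • algebraMap k (modularFunctionFieldFullC k N) a =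
      algebraMap k (modularFunctionFieldFullC k N) (φ a) :=
  SemilinearAut.smul_algebraMap _ a

end CoeffAut

end Fermat.Agent.RED.Spec
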