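import Fermat.Agent.RED.Specialization.SwapField
import Fermat.Agent.HK.PsiPrime
import Mathlib.FieldTheory.IsAlgClosed.AlgebraicClosure
import Mathlib.RingTheory.RootsOfUnity.PrimitiveRoots

/-!
# The expansion of the norm defining the Hecke correspondence
-/

set_option autoImplicit false

noncomputable section

namespace Fermat.Agent.RED.Spec

open ModularCurve AlgebraicCurve HK.Corr

section Twist

variable {R S : Type*} [CommRing R] [CommRing S]

/-- The underlying series of `twist`. -/
def twistSer (u : Rˣ) (x : LaurentSeries R) : LaurentSeries R where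
  coeff n := ((u ^ n : Rˣ) : R) * x.coeff n
  isPWO_support' := x.isPWO_support.mono (Function.support_mul_subset_right _ _)

theorem twistSer_coeff (u : Rˣ) (x : LaurentSeries R) (n : ℤ) :
    (twistSer u x).coeff n = ((u ^ n : Rˣ) : R) * x.coeff n := rfl

theorem twistSer_support (u : Rˣ) (x : LaurentSeries R) :
    (twistSer u x).support = x.support := by
  ext n
  simp [twistSer_coeff]

theorem twistSer_mul (u : Rˣ) (x y : LaurentSeries R) :
    twistSer u (x * y) = twistSer u x * twistSer u y := by
  ext n
  rw [twistSer_coeff, HahnSeries.coeff_mul, HahnSeries.coeff_mul, Finset.mul_sum]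
  refine Finset.sum_congr ?_ fun ij hij => ?_
  · ext ij
    simp only [Finset.mem_antidiagonal, twistSer_support]
  · simp only [Finset.mem_antidiagonal] at hij
    rw [← hij.2.2, twistSer_coeff, twistSer_coeff, zpow_add, Units.val_mul]
    ring

/-- `∑ aₙ qⁿ ↦ ∑ uⁿ aₙ qⁿ`. -/
def twist (u : Rˣ) : LaurentSeries R →+* LaurentSeries R where
  toFun := twistSer u
  map_one' := by
    ext n
    by_cases h : n = 0
    · subst h; simp [twistSer_coeff]
    · simp [twistSer_coeff, HahnSeries.coeff_one, h]
  map_mul' := twistSer_mul u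
  map_zero' := by ext n; simp [twistSer_coeff]
  map_add' x y := by ext n; simp [twistSer_coeff, mul_add]

theorem twist_coeff (u : Rˣ) (x : LaurentSeries R) (n : ℤ) :
    (twist u x).coeff n = ((u ^ n : Rˣ) : R) * x.coeff n := rfl

theorem coeffMap_twist (f : R →+* S) (u : Rˣ) (x : LaurentSeries R) :
    coeffMap f (twist u x) = twist (Units.map f u) (coeffMap f x) := by
  ext n
  rw [coeffMap_coeff, twist_coeff, twist_coeff, map_mul, ← map_zpow]
  rfl

theorem twist_one (x : LaurentSeries R) : twist (1 : Rˣ) x = x := by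
  ext n; simp [twist_coeff]

theorem twist_qExpand (u : Rˣ) {d : ℕ} [NeZero d] (h : u ^ d = 1) (x : LaurentSeries R) :
    twist u (qExpand R d x) = qExpand R d x := by
  ext n
  rw [twist_coeff]
  by_cases hd : (d : ℤ) ∣ n
  · obtain ⟨m, rfl⟩ := hd
    rw [zpow_mul, zpow_natCast, h, one_zpow, Units.val_one, one_mul]
  · rw [qExpand_coeff_of_not_dvd d x hd, mul_zero]

theorem twist_single_zero (u : Rˣ) (c : R) :
    twist u (HahnSeries.single 0 c) = HahnSeries.single 0 c := by
  ext n
  by_cases h : n = 0
  · subst h; simp [twist_coeff]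
  · simp [twist_coeff, HahnSeries.coeff_single_of_ne h]

end Twist

/-- The norm is the product over a complete separated family of embeddings into a field. -/
theorem map_norm_eq_prod {F F' E I : Type*} [Field F] [Field F'] [Algebra F F'] [Field E]
    [Module.Finite F F'] [Algebra.IsSeparable F F'] [Fintype I] (c : F →+* E) (e : I → F' →+* E)
    (hc : ∀ i x, e i (algebraMap F F' x) = c x) (z : F')
    (hsep : Function.Injective fun i => e i z)
    (hcard : Fintype.card I = Module.finrank F F') (y : F') :
    c (Algebra.norm F y) = ∏ i, e i y := by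
  letI : Algebra F (AlgebraicClosure E) := ((algebraMap E (AlgebraicClosure E)).comp c).toAlgebra
  let Φ : I → (F' →ₐ[F] AlgebraicClosure E) := fun i =>
    { (algebraMap E (AlgebraicClosure E)).comp (e i) with
      commutes' := fun x => congrArg (algebraMap E (AlgebraicClosure E)) (hc i x) }
  have hinj : Function.Injective Φ := fun i j h => hsep
    ((algebraMap E (AlgebraicClosure E)).injective (DFunLike.congr_fun h z))
  have hbij : Function.Bijective Φ := (Fintype.bijective_iff_injective_and_card Φ).mpr
    ⟨hinj, hcard.trans (AlgHom.card F F' (AlgebraicClosure E)).symm⟩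
  apply (algebraMap E (AlgebraicClosure E)).injective
  rw [map_prod]
  refine Eq.trans ?_ (hbij.prod_comp (fun σ => σ y)).symm
  exact Algebra.norm_eq_prod_embeddings F (AlgebraicClosure E) y

/-- `j` separates the embeddings. -/
theorem separated_jSer {L : Type*} [Field L] [Algebra ℚ L] {ℓ : ℕ} [NeZero ℓ] (hℓ : ℓ.Prime)
    (ζ : Lˣ) (hζ : IsPrimitiveRoot ζ ℓ) :
    Function.Injective (fun o : Option (Fin ℓ) => o.elim (qExpand L (ℓ * ℓ) (jSer L))
      fun i => twist (ζ ^ (i : ℕ)) (jSer L)) := by
  have h1 : (jSer L).coeff (-1) = 1 := by simpa using coeff_jSer_pow_self (L := L) 1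
  have hfin : ∀ i : Fin ℓ, (twist (ζ ^ (i : ℕ)) (jSer L)).coeff (-1) =
      (((ζ ^ (i : ℕ))⁻¹ : Lˣ) : L) := fun i => by
    show ((((ζ ^ (i : ℕ)) ^ (-1 : ℤ) : Lˣ) : L)) * (jSer L).coeff (-1) = _
    rw [h1, mul_one, zpow_neg_one]
  have hinf : (qExpand L (ℓ * ℓ) (jSer L)).coeff (-1) = 0 := by
    refine qExpand_coeff_of_not_dvd _ _ ?_
    rw [Int.dvd_neg]
    intro h
    have := Int.le_of_dvd one_pos h
    have := hℓ.one_lt
    push_cast at *
    nlinarith
  rintro (_ | i) (_ | j) h <;>
    have h' := congrArg (fun x : LaurentSeries L => x.coeff (-1)) h <;>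
    simp only [Option.elim, hinf, hfin] at h'
  · rfl
  · exact absurd h'.symm (Units.ne_zero _)
  · exact absurd h' (Units.ne_zero _)
  · have := Units.ext h'
    rw [inv_inj] at this
    exact congrArg some (Fin.ext (hζ.pow_inj i.2 j.2 this))

variable {L : Type*} [Field L] [Algebra ℚ L] {N ℓ : ℕ} [NeZero N] [NeZero ℓ]

/-- The norm of `β f` down along `α`, in `q^(1/ℓ)`-expansions. -/
theorem qExpand_norm_heckeBetaBar (ι : L →+* ℂ) (hℓ : ℓ.Prime) (hℓN : ¬ ℓ ∣ N)
    (hint : HeckeAlphaBarIntegral L N ℓ) (hfin : FiniteAlong L (heckeAlphaBar L N ℓ))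
    (hdeg : finrankAlong L (heckeAlphaBar L N ℓ) = ℓ + 1) (ζ : Lˣ)
    (hζ : IsPrimitiveRoot ζ ℓ) (f : laurentBaseChange L (modularFunctionFieldFull N)) :
    qExpand L ℓ ((letI := algebraAlong (heckeAlphaBar L N ℓ)
      Algebra.norm (laurentBaseChange L (modularFunctionFieldFull N))
        (heckeBetaBar L N ℓ f) : laurentBaseChange L (modularFunctionFieldFull N)) :
          LaurentSeries L) =
      qExpand L (ℓ * ℓ) (f : LaurentSeries L) *
        ∏ i : Fin ℓ, twist (ζ ^ (i : ℕ)) (f : LaurentSeries L) := by
  obtain ⟨φ, hφα, hφβ⟩ := exists_swap_embedding (L := L) (N := N) ι hℓ hℓN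
  letI := algebraAlong (heckeAlphaBar L N ℓ)
  haveI : Module.Finite (laurentBaseChange L (modularFunctionFieldFull N))
      (laurentBaseChange L (modularFunctionFieldFull (N * ℓ))) := hfin
  haveI : CharZero L := charZero_of_injective_algebraMap (algebraMap ℚ L).injective
  haveI : CharZero (laurentBaseChange L (modularFunctionFieldFull N)) :=
    charZero_of_injective_algebraMap
      (algebraMap L (laurentBaseChange L (modularFunctionFieldFull N))).injective
  haveI : Algebra.IsIntegral (laurentBaseChange L (modularFunctionFieldFull N))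
      (laurentBaseChange L (modularFunctionFieldFull (N * ℓ))) := ⟨hint⟩
  let e : Option (Fin ℓ) →
      (laurentBaseChange L (modularFunctionFieldFull (N * ℓ)) →+* LaurentSeries L) := fun o =>
    o.elim ((qExpand L ℓ).comp
        (laurentBaseChange L (modularFunctionFieldFull (N * ℓ))).val.toRingHom)
      fun i => (twist (ζ ^ (i : ℕ))).comp φ.toRingHom
  have hinf : ∀ g, e none (heckeBetaBar L N ℓ g) =
      qExpand L (ℓ * ℓ) (g : LaurentSeries L) := fun g =>
    (congrArg (qExpand L ℓ) (coe_heckeBetaBar N ℓ g)).trans (qExpand_qExpand ℓ ℓ _)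
  have hfinv : ∀ i g, e (some i) (heckeBetaBar L N ℓ g) =
      twist (ζ ^ (i : ℕ)) (g : LaurentSeries L) := fun i g =>
    congrArg (twist (ζ ^ (i : ℕ))) (hφβ g)
  have key := map_norm_eq_prod
    ((qExpand L ℓ).comp (laurentBaseChange L (modularFunctionFieldFull N)).val.toRingHom) e
    ?_ (heckeBetaBar L N ℓ ⟨jSer L, jSer_mem_modField N⟩) ?_ ?_ (heckeBetaBar L N ℓ f)
  · refine key.trans ?_
    rw [Fintype.prod_option, hinf]
    simp only [hfinv]
  · have hmap : ∀ x, algebraMap (laurentBaseChange L (modularFunctionFieldFull N))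
        (laurentBaseChange L (modularFunctionFieldFull (N * ℓ))) x = heckeAlphaBar L N ℓ x :=
      fun x => rfl
    rintro (_ | i) x
    · simp only [e, Option.elim, RingHom.comp_apply, AlgHom.toRingHom_eq_coe, RingHom.coe_coe,
        IntermediateField.coe_val, hmap, coe_heckeAlphaBar]
    · simp only [e, Option.elim, RingHom.comp_apply, AlgHom.toRingHom_eq_coe, RingHom.coe_coe,
        IntermediateField.coe_val, hmap, hφα]
      rw [twist_qExpand]
      rw [← pow_mul, mul_comm, pow_mul, hζ.pow_eq_one, one_pow]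
  · intro o o' h
    apply separated_jSer hℓ ζ hζ
    rcases o with _ | i <;> rcases o' with _ | j <;> simpa only [hinf, hfinv, Option.elim] using h
  · rw [Fintype.card_option, Fintype.card_fin]
    exact hdeg.symm

end Fermat.Agent.RED.Spec
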