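import Fermat.Agent.RED.Specialization.SwapAnalytic
import Fermat.Agent.HK.Degen
import Fermat.Prelude.Def_ModularCurve_X0ModL
import Mathlib.FieldTheory.IntermediateField.Adjoin.Algebra

/-!
# The involution of `L(X₀(N ℓ))` exchanging the two degeneracy maps
-/

set_option autoImplicit false

noncomputable section

namespace Fermat.Agent.RED.Spec

open ModularCurve AlgebraicCurve IntermediateField HK.Corr

variable {L : Type*} [Field L] {N ℓ : ℕ} [NeZero N]

theorem coeffMap_genSer {R S : Type*} [CommRing R] [CommRing S] (f : R →+* S) {M : ℕ}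
    (d : DivIdx M) : coeffMap f (genSer R d) = genSer S d := by
  haveI : NeZero d.1 := ⟨d.2.1.ne'⟩
  rw [genSer, genSer, coeffMap_qExpand, coeffMap_jqModC]

theorem coeffMap_aeval_genSer (ι : L →+* ℂ) {M : ℕ} (s : DivIdx M → DivIdx M)
    (P : MvPolynomial (DivIdx M) L) :
    coeffMap ι (MvPolynomial.aeval (genSer L ∘ s) P) =
      MvPolynomial.aeval (genSer ℂ ∘ s) (MvPolynomial.map ι P) := by
  induction P using MvPolynomial.induction_on with
  | C c =>
    rw [MvPolynomial.map_C, MvPolynomial.aeval_C, MvPolynomial.aeval_C,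
      algebraMap_laurentSeries_eq_single, algebraMap_laurentSeries_eq_single, coeffMap_single]
  | add p q hp hq => simp only [map_add, hp, hq]
  | mul_X p d hp =>
    simp only [map_mul, hp, MvPolynomial.map_X, MvPolynomial.aeval_X, Function.comp_apply,
      coeffMap_genSer]

theorem aeval_genSer_swapIdx_field (ι : L →+* ℂ) (hℓ : ℓ.Prime) (hℓN : ¬ ℓ ∣ N)
    {P : MvPolynomial (DivIdx (N * ℓ)) L} (hP : MvPolynomial.aeval (genSer L) P = 0) :
    MvPolynomial.aeval (genSer L ∘ swapIdx hℓ) P = 0 := by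
  have hinj : Function.Injective (coeffMap ι : LaurentSeries L → LaurentSeries ℂ) := fun x y h => by
    ext k
    exact ι.injective (by simpa using congrArg (fun z : LaurentSeries ℂ => z.coeff k) h)
  apply hinj
  rw [coeffMap_aeval_genSer, map_zero]
  refine aeval_genSer_swapIdx hℓ hℓN ?_
  have := coeffMap_aeval_genSer (M := N * ℓ) ι id P
  simp only [Function.comp_id] at this
  rw [← this, hP, map_zero]

/-- The ring generated by the `j(q^d)`. -/
abbrev genAlg (L : Type*) [Field L] (M : ℕ) : Subalgebra L (LaurentSeries L) :=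
  Algebra.adjoin L (Set.range (genSer L (M := M)))

theorem exists_aeval_eq_of_mem_genAlg {M : ℕ} (x : genAlg L M) :
    ∃ P : MvPolynomial (DivIdx M) L, MvPolynomial.aeval (genSer L) P = (x : LaurentSeries L) := by
  have hx := x.2
  change (x : LaurentSeries L) ∈ Algebra.adjoin L _ at hx
  rwa [Algebra.adjoin_range_eq_range_aeval, AlgHom.mem_range] at hx

theorem exists_swap_genAlg (ι : L →+* ℂ) (hℓ : ℓ.Prime) (hℓN : ¬ ℓ ∣ N) :
    ∃ ψ : genAlg L (N * ℓ) →ₐ[L] LaurentSeries L, Function.Injective ψ ∧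
      ∀ d, ψ ⟨genSer L d, Algebra.subset_adjoin ⟨d, rfl⟩⟩ = genSer L (swapIdx hℓ d) := by
  choose P hP using fun x : genAlg L (N * ℓ) => exists_aeval_eq_of_mem_genAlg x
  set f := MvPolynomial.aeval (R := L) (genSer L (M := N * ℓ) ∘ swapIdx hℓ)
  have hf : ∀ (Q : MvPolynomial (DivIdx (N * ℓ)) L) (x : genAlg L (N * ℓ)),
      MvPolynomial.aeval (genSer L) Q = (x : LaurentSeries L) → f Q = f (P x) := by
    intro Q x hQ
    rw [← sub_eq_zero, ← map_sub]
    exact aeval_genSer_swapIdx_field ι hℓ hℓN (by rw [map_sub, hQ, hP, sub_self])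
  let ψ : genAlg L (N * ℓ) →ₐ[L] LaurentSeries L :=
    { toFun := fun x => f (P x)
      map_one' := (hf 1 1 (by simp)).symm.trans (map_one f)
      map_mul' := fun x y => (hf (P x * P y) (x * y) (by simp [hP])).symm.trans (map_mul f _ _)
      map_zero' := (hf 0 0 (by simp)).symm.trans (map_zero f)
      map_add' := fun x y => (hf (P x + P y) (x + y) (by simp [hP])).symm.trans (map_add f _ _)
      commutes' := fun c => (hf (MvPolynomial.C c) (algebraMap L _ c)
        (by rw [MvPolynomial.aeval_C]; rfl)).symm.trans (MvPolynomial.aeval_C _ c) }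
  refine ⟨ψ, ?_, fun d => ?_⟩
  · rw [injective_iff_map_eq_zero]
    intro x hx
    refine Subtype.ext ?_
    rw [← hP x]
    have h1 : MvPolynomial.aeval (genSer L) (MvPolynomial.rename (swapIdx hℓ) (P x)) = 0 := by
      rw [MvPolynomial.aeval_rename]; exact hx
    have h2 := aeval_genSer_swapIdx_field ι hℓ hℓN h1
    rw [MvPolynomial.aeval_rename, Function.comp_assoc,
      show swapIdx (N := N) hℓ ∘ swapIdx hℓ = id from funext (swapIdx_swapIdx hℓ hℓN),
      Function.comp_id] at h2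
    exact h2
  · refine (hf (MvPolynomial.X d) ⟨genSer L d, Algebra.subset_adjoin ⟨d, rfl⟩⟩ (by simp)).symm.trans
      (MvPolynomial.aeval_X _ d)

open IntermediateField.algebraAdjoinAdjoin in
theorem exists_swap_adjoin (ι : L →+* ℂ) (hℓ : ℓ.Prime) (hℓN : ¬ ℓ ∣ N) :
    ∃ φ : adjoin L (Set.range (genSer L (M := N * ℓ))) →ₐ[L] LaurentSeries L,
      ∀ d, φ ⟨genSer L d, subset_adjoin L _ ⟨d, rfl⟩⟩ = genSer L (swapIdx hℓ d) := by
  obtain ⟨ψ, hψ, hψd⟩ := exists_swap_genAlg ι hℓ hℓN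
  refine ⟨IsFractionRing.liftAlgHom hψ, fun d => ?_⟩
  rw [← hψd d, IsFractionRing.liftAlgHom_apply]
  exact IsFractionRing.lift_algebraMap hψ ⟨genSer L d, Algebra.subset_adjoin ⟨d, rfl⟩⟩

variable [Algebra ℚ L]

theorem jSer_eq_jqModC : jSer L = jqModC L := by
  rw [jSer, ← jqModC_rat, coeffEmb, coeffMap_jqModC]

omit [NeZero N] in
theorem modField_eq_adjoin_genSer (M : ℕ) [NeZero M] :
    modField L M = adjoin L (Set.range (genSer L (M := M))) := by
  refine le_antisymm ?_ ?_
  · rw [modField_le_iff]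
    intro d hd hne
    rw [jSer_eq_jqModC]
    exact subset_adjoin L _ ⟨⟨d, Nat.pos_of_ne_zero hne.out, hd⟩, rfl⟩
  · rw [adjoin_le_iff]
    rintro _ ⟨d, rfl⟩
    haveI : NeZero d.1 := ⟨d.2.1.ne'⟩
    rw [genSer, ← jSer_eq_jqModC]
    exact qExpand_jSer_mem d.2.2

/-- There is an `L`-embedding of `L(X₀(N ℓ))` into `L((q))` turning the two degeneracy images of
`x ∈ L(X₀(N))` into `x(q^ℓ)` and `x(q)` respectively. -/
theorem exists_swap_embedding [NeZero ℓ] (ι : L →+* ℂ) (hℓ : ℓ.Prime) (hℓN : ¬ ℓ ∣ N) :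
    ∃ φ : laurentBaseChange L (modularFunctionFieldFull (N * ℓ)) →ₐ[L] LaurentSeries L,
      (∀ x, φ (heckeAlphaBar L N ℓ x) = qExpand L ℓ (x : LaurentSeries L)) ∧
      (∀ x, φ (heckeBetaBar L N ℓ x) = (x : LaurentSeries L)) := by
  obtain ⟨φ₀, hφ₀⟩ := exists_swap_adjoin (L := L) ι hℓ hℓN
  let φ : modField L (N * ℓ) →ₐ[L] LaurentSeries L :=
    φ₀.comp (inclusion (modField_eq_adjoin_genSer (L := L) (N * ℓ)).le)
  have hφd : ∀ (d : DivIdx (N * ℓ)) (h : genSer L d ∈ modField L (N * ℓ)),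
      φ ⟨genSer L d, h⟩ = genSer L (swapIdx hℓ d) := fun d h => hφ₀ d
  -- two homomorphisms agreeing on generators agree
  have agree : ∀ (f g : modField L N →ₐ[L] LaurentSeries L),
      (∀ (d : DivIdx N) (h : genSer L d ∈ modField L N), f ⟨_, h⟩ = g ⟨_, h⟩) → f = g := by
    intro f g h
    refine AlgHom.ext fun x => ?_
    obtain ⟨x, hx⟩ := x
    have hx' : x ∈ adjoin L (Set.range (genSer L (M := N))) := modField_eq_adjoin_genSer (L := L) N ▸ hx
    revert hx
    induction hx' using adjoin_induction with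
    | mem y hy => obtain ⟨d, rfl⟩ := hy; exact fun hx => h d hx
    | algebraMap c =>
      intro hx
      exact (AlgHom.commutes f c).trans (AlgHom.commutes g c).symm
    | add a b ha hb iha ihb =>
      intro hx
      have ha' : a ∈ modField L N := (modField_eq_adjoin_genSer (L := L) N).symm ▸ ha
      have hb' : b ∈ modField L N := (modField_eq_adjoin_genSer (L := L) N).symm ▸ hb
      rw [show (⟨a + b, hx⟩ : modField L N) = ⟨a, ha'⟩ + ⟨b, hb'⟩ from rfl, map_add, map_add,
        iha ha', ihb hb']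
    | inv a ha iha =>
      intro hx
      have ha' : a ∈ modField L N := (modField_eq_adjoin_genSer (L := L) N).symm ▸ ha
      rw [show (⟨a⁻¹, hx⟩ : modField L N) = ⟨a, ha'⟩⁻¹ from rfl, map_inv₀, map_inv₀, iha ha']
    | mul a b ha hb iha ihb =>
      intro hx
      have ha' : a ∈ modField L N := (modField_eq_adjoin_genSer (L := L) N).symm ▸ ha
      have hb' : b ∈ modField L N := (modField_eq_adjoin_genSer (L := L) N).symm ▸ hb
      rw [show (⟨a * b, hx⟩ : modField L N) = ⟨a, ha'⟩ * ⟨b, hb'⟩ from rfl, map_mul, map_mul,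
        iha ha', ihb hb']
  refine ⟨φ, fun x => ?_, fun x => ?_⟩
  · have := agree (φ.comp (heckeAlphaBar L N ℓ)) ((qExpandAlg L ℓ).comp (modField L N).val)
      fun d h => ?_
    · exact DFunLike.congr_fun this x
    · haveI : NeZero d.1 := ⟨d.2.1.ne'⟩
      let d' : DivIdx (N * ℓ) := ⟨d.1, d.2.1, d.2.2.trans (dvd_mul_right N ℓ)⟩
      have h' : genSer L d' ∈ modField L (N * ℓ) := (heckeAlphaBar L N ℓ ⟨_, h⟩).2
      have e : heckeAlphaBar L N ℓ ⟨genSer L d, h⟩ = ⟨genSer L d', h'⟩ := Subtype.ext rfl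
      show φ (heckeAlphaBar L N ℓ ⟨genSer L d, h⟩) = qExpand L ℓ (genSer L d)
      rw [e, hφd, genSer, genSer, qExpand_qExpand]
      haveI : NeZero (swapIdx hℓ d').1 := ⟨(swapIdx hℓ d').2.1.ne'⟩
      exact qExpand_congr (coe_swapIdx_of_dvd hℓ (d := d') d.2.2) _
  · have := agree (φ.comp (heckeBetaBar L N ℓ)) (modField L N).val fun d h => ?_
    · exact DFunLike.congr_fun this x
    · haveI : NeZero d.1 := ⟨d.2.1.ne'⟩
      let d' : DivIdx (N * ℓ) := ⟨ℓ * d.1, Nat.mul_pos hℓ.pos d.2.1,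
        (mul_dvd_mul_left ℓ d.2.2).trans (dvd_of_eq (mul_comm ℓ N))⟩
      have hd' : genSer L d' = qExpand L ℓ (genSer L d) := by
        rw [genSer, genSer, qExpand_qExpand]
      have h' : genSer L d' ∈ modField L (N * ℓ) := hd' ▸ (heckeBetaBar L N ℓ ⟨_, h⟩).2
      have e : heckeBetaBar L N ℓ ⟨genSer L d, h⟩ = ⟨genSer L d', h'⟩ :=
        Subtype.ext (by rw [coe_heckeBetaBar]; exact hd'.symm)
      show φ (heckeBetaBar L N ℓ ⟨genSer L d, h⟩) = genSer L d
      rw [e, hφd]
      exact congrArg (genSer L) (Subtype.ext (coe_swapIdx_of_mul hℓ hℓN (d := d') rfl) :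
        swapIdx hℓ d' = ⟨d.1, d.2.1, d.2.2.trans (dvd_mul_right N ℓ)⟩)

end Fermat.Agent.RED.Spec
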