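import Fermat.Agent.RED.Specialization.Main
import Fermat.Agent.RED.TorsionModular

/-!
# Specializations of `J₀(N)` at all good primes from the lifting property
-/

set_option autoImplicit false

noncomputable section

open ModularCurve

namespace Fermat.Agent.RED.Spec

/-- `SpecializationExists` for `J₀(N)`, given the lifting property at every good prime. -/
theorem specializationExists_of_x0Lift (N p : ℕ) [NeZero N] (hcomm : HeckeOperatorsCommuteBar N)
    (hlift : ∀ (ℓ : ℕ) (hℓ : ℓ.Prime) (hN : ¬ℓ ∣ N) (A : ValuationSubring (AlgebraicClosure ℚ))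
      (hA : A.LiesOverPrime ℓ), X0Lift hℓ hN hA) :
    letI := heckeModuleBar N
    ∀ (_ : SMulCommClass (AlgebraicClosure ℚ ≃ₐ[ℚ] AlgebraicClosure ℚ) HeckeAlg (JZero N)),
      SpecializationExists (K := ℚ) (L := AlgebraicClosure ℚ) N p (JZero N) := by
  letI := heckeModuleBar N
  intro hsc ℓ hℓ hdvd A hA
  have hN : ¬ℓ ∣ N := fun h => hdvd (h.mul_right p)
  have hl := hlift ℓ hℓ hN A hA
  exact exists_specialization_jZero hℓ hN hA hl p hcomm (fun x ⟨n, hn⟩ hx =>
    eq_zero_of_reductionModL_eq_zero hℓ hN hA hl (reductionInputsModL hℓ hN hA hl)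
      (fun h => hdvd (dvd_mul_of_dvd_right (hℓ.dvd_of_dvd_pow h) N)) x hn hx) hsc

end Fermat.Agent.RED.Spec
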