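import Fermat.Agent.RED.Specialization.FrobSeries
import Fermat.Agent.RED.Specialization.SwapField
import Fermat.Agent.RED.CoordData
import Fermat.Agent.MF.Coeff.Data
import Fermat.Agent.HK.PsiPrime
import Fermat.Agent.Galois.Places

/-!
# The Kronecker congruence for the modular polynomial of prime level
-/

set_option autoImplicit false

noncomputable section

namespace Fermat.Agent.RED.Spec

open ModularCurve AlgebraicCurve Polynomial HK.Corr

/-- Evaluation of `ℤ[X]` at a series. -/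
abbrev evZ {R : Type*} [CommRing R] (x : R) : ℤ[X] →+* R :=
  Polynomial.eval₂RingHom (Int.castRingHom R) x

theorem evZ_comp {R S : Type*} [CommRing R] [CommRing S] (f : R →+* S) (x : R) :
    f.comp (evZ x) = evZ (f x) :=
  Polynomial.ringHom_ext' (Subsingleton.elim _ _) (by simp)

theorem evZ_eq {R : Type*} [CommRing R] {f : ℤ[X] →+* R} {x : R} (h : f X = x) : f = evZ x :=
  Polynomial.ringHom_ext' (Subsingleton.elim _ _) (by simp [h])

variable (ℓ : ℕ) [hℓ : Fact ℓ.Prime]

/-- The modular polynomial of level `ℓ`, over `ℤ`. -/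
def modPoly : ℤ[X][X] :=
  haveI : NeZero ℓ := ⟨hℓ.out.ne_zero⟩
  (MF.Coeff.modularPolynomialData ℓ).Φ

theorem modPoly_monic : (modPoly ℓ).Monic := by
  haveI : NeZero ℓ := ⟨hℓ.out.ne_zero⟩
  exact (MF.Coeff.modularPolynomialData ℓ).monic

theorem natDegree_modPoly : (modPoly ℓ).natDegree = ℓ + 1 := by
  haveI : NeZero ℓ := ⟨hℓ.out.ne_zero⟩
  rw [show (modPoly ℓ).natDegree = dedekindPsi ℓ from
    (MF.Coeff.modularPolynomialData ℓ).natDegree_eq]
  have h := psi_mul_prime_of_not_dvd (N := 1) hℓ.out hℓ.out.not_dvd_one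
  rwa [one_mul, dedekindPsi_one, mul_one] at h

variable (L : Type*) [Field L] [Algebra ℚ L] [NeZero ℓ]

theorem modPoly_relation : (modPoly ℓ).eval₂ (evZ (jqModC L)) (jqNModC L ℓ) = 0 := by
  have h := congrArg (coeffMap (algebraMap ℚ L)) (MF.Coeff.modularPolynomialData ℓ).eval_eq_zero
  rw [Polynomial.hom_eval₂, map_zero, show coeffMap (algebraMap ℚ L) (jqN ℓ) = jqNModC L ℓ from
    coeffMap_jqNModC _ ℓ, evZ_eq (x := jqModC L) (f := (coeffMap (algebraMap ℚ L)).comp evalAtJ)
      (by rw [RingHom.comp_apply, evalAtJ_X]; exact coeffMap_jqModC _)] at h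
  exact h

variable {L}

theorem modPoly_relation_swap (ι : L →+* ℂ) :
    (modPoly ℓ).eval₂ (evZ (jqNModC L ℓ)) (jqModC L) = 0 := by
  obtain ⟨φ, hα, hβ⟩ := exists_swap_embedding (L := L) (N := 1) ι hℓ.out hℓ.out.not_dvd_one
  let J : laurentBaseChange L (modularFunctionFieldFull 1) := ⟨jSer L, jSer_mem_modField 1⟩
  have h1 : (modPoly ℓ).eval₂ (evZ (heckeAlphaBar L 1 ℓ J)) (heckeBetaBar L 1 ℓ J) = 0 := by
    apply (laurentBaseChange L (modularFunctionFieldFull (1 * ℓ))).val.injective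
    rw [map_zero, ← AlgHom.coe_toRingHom, Polynomial.hom_eval₂, evZ_comp]
    show (modPoly ℓ).eval₂ (evZ (heckeAlphaBar L 1 ℓ J : LaurentSeries L))
      (heckeBetaBar L 1 ℓ J : LaurentSeries L) = 0
    rw [coe_heckeAlphaBar, coe_heckeBetaBar]
    show (modPoly ℓ).eval₂ (evZ (jSer L)) (qExpand L ℓ (jSer L)) = 0
    rw [jSer_eq_jqModC]
    exact modPoly_relation ℓ L
  have h2 := congrArg φ.toRingHom h1
  rw [Polynomial.hom_eval₂, map_zero, evZ_comp] at h2
  rw [show φ.toRingHom (heckeAlphaBar L 1 ℓ J) = jqNModC L ℓ by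
      show φ (heckeAlphaBar L 1 ℓ J) = _
      rw [hα]; exact congrArg (qExpand L ℓ) (jSer_eq_jqModC (L := L)),
    show φ.toRingHom (heckeBetaBar L 1 ℓ J) = jqModC L by
      show φ (heckeBetaBar L 1 ℓ J) = _
      rw [hβ]; exact jSer_eq_jqModC (L := L)] at h2
  exact h2

/-- `Φ(j(q^ℓ), Y)` splits into the `ℓ + 1` expansions. -/
theorem modPoly_map_eq_prod (ι : L →+* ℂ) {ζ : Lˣ} (hζ : IsPrimitiveRoot ζ ℓ) :
    (modPoly ℓ).map (evZ (jqNModC L ℓ)) =
      (X - C (qExpand L ℓ (jqNModC L ℓ))) *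
        ∏ b ∈ Finset.range ℓ, (X - C (MF.Coeff.twist (ζ ^ b) (jqModC L))) := by
  have hc : ∀ x : LaurentSeries L, (MF.Coeff.evalFirst x).comp
      (mapRingHom (Int.castRingHom L)) = evZ x := fun x => evZ_eq (by simp)
  have := MF.Coeff.eq_prod_of_swapped_relation ℓ hζ
    ((modPoly ℓ).map (mapRingHom (Int.castRingHom L))) ((modPoly_monic ℓ).map _)
    (Polynomial.natDegree_map_le.trans (natDegree_modPoly ℓ).le)
    (by rw [Polynomial.eval₂_map, hc]; exact modPoly_relation ℓ L)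
    (by rw [Polynomial.eval₂_map, hc]; exact modPoly_relation_swap ℓ ι)
  rwa [Polynomial.map_map, hc] at this

section Congruence

variable (A : ValuationSubring L) {k : Type*} [Field k] [CharP k ℓ]

omit [Algebra ℚ L] in
theorem eq_one_of_pow_eq_one {u : k} (h : u ^ ℓ = 1) : u = 1 := by
  refine frobenius_inj k ℓ ?_
  simpa [frobenius_def] using h

/-- The Kronecker congruence. -/
theorem modPoly_map_charP (ι : L →+* ℂ) {ζ : Lˣ} (hζ : IsPrimitiveRoot ζ ℓ) (hζA : (ζ : L) ∈ A)
    (π : A →+* k) :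
    (modPoly ℓ).map (mapRingHom (Int.castRingHom k)) =
      (X - C (X ^ ℓ)) * (X ^ ℓ - C X) := by
  haveI : ExpChar k ℓ := ExpChar.prime hℓ.out
  -- `ζ` as a unit of `A`
  let z : A := ⟨ζ, hζA⟩
  have hz : z ^ ℓ = 1 := Subtype.ext (by
    show (ζ : L) ^ ℓ = 1
    rw [← Units.val_pow_eq_pow_val, hζ.pow_eq_one, Units.val_one])
  let zu : Aˣ := Units.ofPowEqOne z ℓ hz (NeZero.ne ℓ)
  have hzu : Units.map A.subtype.toMonoidHom zu = ζ := Units.ext rfl
  have hπzu : Units.map π.toMonoidHom zu = 1 := Units.ext <| eq_one_of_pow_eq_one ℓ (by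
    show (π z) ^ ℓ = 1
    rw [← map_pow, hz, map_one])
  have hA : (modPoly ℓ).map (evZ (jqNModC A ℓ)) =
      (X - C (qExpand A ℓ (jqNModC A ℓ))) *
        ∏ b ∈ Finset.range ℓ, (X - C (MF.Coeff.twist (zu ^ b) (jqModC A))) := by
    apply Polynomial.map_injective (coeffMap A.subtype) (fun x y h => HahnSeries.ext (funext fun n =>
      Subtype.ext (congrArg (fun s : LaurentSeries L => s.coeff n) h)))
    rw [Polynomial.map_map, evZ_comp, coeffMap_jqNModC, modPoly_map_eq_prod ℓ ι hζ,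
      Polynomial.map_mul, Polynomial.map_prod]
    simp only [Polynomial.map_sub, Polynomial.map_X, Polynomial.map_C, coeffMap_qExpand,
      coeffMap_jqNModC, MF.Coeff.coeffMap_twist, map_pow, hzu, coeffMap_jqModC]
  have hk : (modPoly ℓ).map (evZ (jqNModC k ℓ)) =
      (X - C (qExpand k ℓ (jqNModC k ℓ))) * (X - C (jqModC k)) ^ ℓ := by
    have := congrArg (Polynomial.map (coeffMap π)) hA
    rw [Polynomial.map_map, evZ_comp, coeffMap_jqNModC, Polynomial.map_mul, Polynomial.map_prod]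
      at this
    simpa only [Polynomial.map_sub, Polynomial.map_X, Polynomial.map_C, coeffMap_qExpand,
      coeffMap_jqNModC, MF.Coeff.coeffMap_twist, map_pow, hπzu, one_pow, MF.Coeff.twist_one,
      coeffMap_jqModC, Finset.prod_const, Finset.card_range] using this
  -- `j^ℓ = j(q^ℓ)`
  have hfrob : jqModC k ^ ℓ = jqNModC k ℓ := by
    rw [laurentSeries_pow_char, coeffMap_jqModC]; rfl
  -- cancel the evaluation at `j(q^ℓ)`
  let e : k[X] →+* LaurentSeries k := (qExpand k ℓ).comp (eval₂RingHom HahnSeries.C (jqModC k))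
  have he : Function.Injective e := by
    refine (qExpand_injective ℓ).comp ?_
    rw [injective_iff_map_eq_zero]
    exact fun p hp => (MF.Coeff.eval₂_jqModC_eq_zero_iff k p).mp hp
  have heX : e X = jqNModC k ℓ := by simp [e, jqNModC]
  apply Polynomial.map_injective e he
  rw [Polynomial.map_map, evZ_eq (x := jqNModC k ℓ) (f := e.comp (mapRingHom (Int.castRingHom k)))
    (by simp [heX]), hk]
  haveI : CharP (LaurentSeries k) ℓ :=
    charP_of_injective_algebraMap (algebraMap k (LaurentSeries k)).injective ℓ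
  have hq : qExpand k ℓ (jqNModC k ℓ) = jqNModC k ℓ ^ ℓ :=
    calc qExpand k ℓ (jqNModC k ℓ) = qExpand k ℓ (jqModC k ^ ℓ) := by rw [hfrob]
      _ = jqNModC k ℓ ^ ℓ := map_pow _ _ _
  rw [sub_pow_char, ← C_pow, hfrob, hq]
  simp only [Polynomial.map_mul, Polynomial.map_sub, Polynomial.map_X, Polynomial.map_C,
    Polynomial.map_pow, map_pow, heX]

end Congruence

section Places

variable {F : Type*} [Field F] [Algebra L F] (A : ValuationSubring L) (W : Place L F)

omit [Algebra ℚ L] [NeZero ℓ] in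
/-- If `Φ(a, b) = 0` and `a` is finite with integral value at `W`, then so is `b`. -/
theorem modPoly_place_integral (hW : W.deg = 1) {a b : F}
    (hab : (modPoly ℓ).eval₂ (evZ a) b = 0) (ha : a ∈ W.toValuationSubring)
    (haA : placeVal W hW ⟨a, ha⟩ ∈ A) :
    ∃ hb : b ∈ W.toValuationSubring, placeVal W hW ⟨b, hb⟩ ∈ A ∧
      (modPoly ℓ).eval₂ (evZ (placeVal W hW ⟨a, ha⟩)) (placeVal W hW ⟨b, hb⟩) = 0 := by
  have hb : b ∈ W.toValuationSubring := by
    refine mem_valuationSubring_of_isIntegralElem W.toValuationSubring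
      (φ := (algebraMap W.toValuationSubring F).comp (evZ (⟨a, ha⟩ : W.toValuationSubring)))
      (fun r => Subtype.prop _) ⟨modPoly ℓ, modPoly_monic ℓ, ?_⟩
    rw [evZ_comp]
    exact hab
  have h0 : (modPoly ℓ).eval₂ (evZ (⟨a, ha⟩ : W.toValuationSubring)) ⟨b, hb⟩ = 0 := by
    apply W.toValuationSubring.subtype_injective
    rw [Polynomial.hom_eval₂, evZ_comp, map_zero]
    exact hab
  have h1 := congrArg (placeVal W hW) h0
  rw [Polynomial.hom_eval₂, evZ_comp, map_zero] at h1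
  refine ⟨hb, ?_, h1⟩
  refine mem_valuationSubring_of_isIntegralElem A
    (φ := A.subtype.comp (evZ (⟨_, haA⟩ : A))) (fun r => Subtype.prop _)
    ⟨modPoly ℓ, modPoly_monic ℓ, ?_⟩
  rw [evZ_comp]
  exact h1

end Places

end Fermat.Agent.RED.Spec
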