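import Fermat.Agent.RED.Specialization.NormExpansion
import Fermat.Agent.RED.Specialization.FrobSeries
import Fermat.Prelude.Def_ModularCurve_ReductionModL
import Fermat.Prelude.Def_ModularCurve_HeckeModule

/-!
# The congruence relation on `Pic⁰`

For any reduction map of places `r`, reduction after the Hecke correspondence and
`(Frobenius + ℓ · Frobenius⁻¹)` after reduction agree on principal divisors (by the expansion of the
norm), hence on divisors of degree zero as soon as `Pic⁰` is divisible.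
-/

set_option autoImplicit false
set_option linter.style.haveILetI false

noncomputable section

namespace Fermat.Agent.RED.Spec

open ModularCurve AlgebraicCurve

section Generic

theorem correspondence_apply_eq_ord {K F F' : Type*} [Field K] [Field F] [Field F'] [Algebra K F]
    [Algebra K F'] [HasPrincipalDivisors K F'] (φ ψ : F →ₐ[K] F') (hφ : φ.toRingHom.IsIntegral)
    (hψ : ψ.toRingHom.IsIntegral) (hfin : FiniteAlong K ψ) (hN : NormFormulaAlong K ψ hfin)
    {D : Divisor K F} {f : F} (hf : f ≠ 0) (hD : ∀ v, D v = v.ord f) (v : Place K F) :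
    Divisor.correspondence φ ψ hφ hψ D v =
      v.ord (letI := algebraAlong ψ; Algebra.norm F (φ f)) := by
  have hpull : ∀ w, Divisor.pullbackAlong φ hφ D w = w.ord (φ f) := by
    intro w
    letI := algebraAlong φ
    haveI := isScalarTower_along φ
    haveI := isIntegral_along φ hφ
    exact Divisor.pullback_apply_eq_ord hD w
  rw [Divisor.correspondence_apply]
  letI := algebraAlong ψ
  haveI := isScalarTower_along ψ
  haveI := isIntegral_along ψ hψ
  exact hN (φ f) ((map_ne_zero φ).mpr hf) _ hpull v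

theorem exists_coeffMap_subtype_eq {L : Type*} [Field L] (A : ValuationSubring L)
    (g : LaurentSeries L) (h : ∀ n, g.coeff n ∈ A) :
    ∃ y : LaurentSeries A, coeffMap A.subtype y = g :=
  ⟨{ coeff := fun n => ⟨g.coeff n, h n⟩
     isPWO_support' := g.isPWO_support.mono fun n hn h0 => hn (Subtype.ext h0) },
    HahnSeries.ext rfl⟩

theorem coeffMap_subtype_injective {L : Type*} [Field L] (A : ValuationSubring L) :
    Function.Injective (coeffMap A.subtype : LaurentSeries A → LaurentSeries L) := fun x y h => by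
  ext n
  simpa using congrArg (fun z : LaurentSeries L => z.coeff n) h

/-- An additive map on divisors which kills the principal ones kills degree zero, if `Pic⁰` is
divisible. -/
theorem eq_zero_on_degZero {K F k F' : Type*} [Field K] [Field F] [Algebra K F] [Field k] [Field F']
    [Algebra k F'] (Δ : Divisor K F →+ Divisor k F')
    (hprin : ∀ D ∈ Divisor.principal (K := K) (F := F), Δ D = 0)
    (hdiv : ∀ n : ℕ, n ≠ 0 → ∀ z : Pic0 K F, ∃ y, n • y = z)
    (D : Divisor K F) (hD : D ∈ Divisor.degZero (K := K) (F := F)) : Δ D = 0 := by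
  ext Q
  rw [Finsupp.zero_apply]
  have key : ∀ n : ℕ, n ≠ 0 → (n : ℤ) ∣ Δ D Q := fun n hn => by
    obtain ⟨y, hy⟩ := hdiv n hn (Pic0.mk ⟨D, hD⟩)
    obtain ⟨E, rfl⟩ := Pic0.mk_surjective y
    have hmem : (⟨D, hD⟩ : Divisor.degZero (K := K) (F := F)) - n • E ∈
        (Divisor.principal (K := K) (F := F)).addSubgroupOf
          (Divisor.degZero (K := K) (F := F)) := by
      rw [← QuotientAddGroup.eq_iff_sub_mem, QuotientAddGroup.mk_nsmul]
      exact hy.symm
    rw [AddSubgroup.mem_addSubgroupOf, AddSubgroupClass.coe_sub,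
      AddSubgroupClass.coe_nsmul] at hmem
    have h0 := hprin _ hmem
    rw [map_sub, map_nsmul, sub_eq_zero] at h0
    exact ⟨Δ (E : Divisor K F) Q, by rw [h0, Finsupp.smul_apply, nsmul_eq_mul]⟩
  exact Int.eq_zero_of_dvd_of_natAbs_lt_natAbs (key ((Δ D Q).natAbs + 1) (Nat.succ_ne_zero _))
    (by rw [Int.natAbs_natCast]; exact Nat.lt_succ_self _)

end Generic

section Reduction

variable {L : Type*} [Field L] [Algebra ℚ L] {A : ValuationSubring L}
variable {k : Type*} [Field k] {π : A →+* k} {N ℓ : ℕ} [NeZero N] [NeZero ℓ] [Fact ℓ.Prime]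
  [CharP k ℓ]

/-- The norm of `β f` is integral, with reduction `f̄(q^ℓ) · f̄^φ(q)`. -/
theorem exists_norm_lift (ι : L →+* ℂ) (hℓN : ¬ ℓ ∣ N) (hint : HeckeAlphaBarIntegral L N ℓ)
    (hfin : FiniteAlong L (heckeAlphaBar L N ℓ))
    (hdeg : finrankAlong L (heckeAlphaBar L N ℓ) = ℓ + 1) (ζ : Aˣ) (hζ : IsPrimitiveRoot ζ ℓ)
    (hπζ : π (ζ : A) = 1) (y : LaurentSeries A)
    (hy : coeffMap A.subtype y ∈ laurentBaseChange L (modularFunctionFieldFull N)) :
    ∃ z : LaurentSeries A,
      coeffMap A.subtype z =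
        ((letI := algebraAlong (heckeAlphaBar L N ℓ)
          Algebra.norm (laurentBaseChange L (modularFunctionFieldFull N))
            (heckeBetaBar L N ℓ ⟨_, hy⟩) : laurentBaseChange L (modularFunctionFieldFull N)) :
          LaurentSeries L) ∧
      coeffMap π z = qExpand k ℓ (coeffMap π y) * coeffMap (frobenius k ℓ) (coeffMap π y) := by
  have hℓ : ℓ.Prime := Fact.out
  set g := ((letI := algebraAlong (heckeAlphaBar L N ℓ)
          Algebra.norm (laurentBaseChange L (modularFunctionFieldFull N))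
            (heckeBetaBar L N ℓ ⟨_, hy⟩) : laurentBaseChange L (modularFunctionFieldFull N)) :
          LaurentSeries L) with hg
  set P : LaurentSeries A :=
    qExpand A (ℓ * ℓ) y * ∏ i : Fin ℓ, twist (ζ ^ (i : ℕ)) y with hP
  have hζL : IsPrimitiveRoot (Units.map (A.subtype : A →* L) ζ) ℓ :=
    hζ.map_of_injective (Units.map_injective Subtype.coe_injective)
  have key : qExpand L ℓ g = coeffMap A.subtype P := by
    rw [hg, qExpand_norm_heckeBetaBar ι hℓ hℓN hint hfin hdeg _ hζL, hP, map_mul, map_prod,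
      coeffMap_qExpand]
    simp only [coeffMap_twist, map_pow]
  obtain ⟨z, hz⟩ := exists_coeffMap_subtype_eq A g fun n => by
    rw [← qExpand_coeff_mul ℓ g n, key, coeffMap_coeff]
    exact SetLike.coe_mem _
  refine ⟨z, hz, qExpand_injective (R := k) ℓ ?_⟩
  have hzP : qExpand A ℓ z = P :=
    coeffMap_subtype_injective A (by rw [coeffMap_qExpand, hz, key])
  rw [← coeffMap_qExpand, hzP, hP, map_mul (coeffMap π), map_prod, map_mul (qExpand k ℓ),
    qExpand_qExpand, ← laurentSeries_pow_char, coeffMap_qExpand]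
  refine congrArg _ (Eq.trans (Finset.prod_congr rfl (g := fun _ => coeffMap π y) fun i _ => ?_)
    ((Finset.prod_const _).trans (by rw [Finset.card_univ, Fintype.card_fin])))
  rw [coeffMap_twist, map_pow, show Units.map (π : A →* k) ζ = 1 from Units.ext hπζ, one_pow,
    twist_one]

variable (φ : k ≃+* k) (hφ : ∀ x, φ x = x ^ ℓ)
variable {r : Place L (laurentBaseChange L (modularFunctionFieldFull N)) →
  Place k (modularFunctionFieldFullC k N)}
variable [HasPrincipalDivisors L (laurentBaseChange L (modularFunctionFieldFull (N * ℓ)))]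

include hφ in
set_option maxHeartbeats 800000 in
/-- The congruence relation on integral principal divisors. -/
theorem mapDomain_heckeDivBar_of_integral (ι : L →+* ℂ) (hℓN : ¬ ℓ ∣ N)
    (hα : HeckeAlphaBarIntegral L N ℓ) (hβ : HeckeBetaBarIntegral L N ℓ)
    (hfin : FiniteAlong L (heckeAlphaBar L N ℓ))
    (hNF : NormFormulaAlong L (heckeAlphaBar L N ℓ) hfin)
    (hdeg : finrankAlong L (heckeAlphaBar L N ℓ) = ℓ + 1) (ζ : Aˣ) (hζ : IsPrimitiveRoot ζ ℓ)
    (hπζ : π (ζ : A) = 1) (hr : IsPlaceReductionAlong A π N r)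
    {D : Divisor L (laurentBaseChange L (modularFunctionFieldFull N))}
    (hD : D ∈ integralPrincipalDivisors A π N) :
    Finsupp.mapDomain r (heckeDivBar hα hβ D) =
      coeffAut N φ • Finsupp.mapDomain r D +
        ℓ • ((coeffAut N φ)⁻¹ • Finsupp.mapDomain r D) := by
  obtain ⟨y, hy, hyk, hne, hDy⟩ := hD
  set f : laurentBaseChange L (modularFunctionFieldFull N) := ⟨_, hy⟩
  set fb : modularFunctionFieldFullC k N := ⟨_, hyk⟩ with hfb
  have hf0 : f ≠ 0 := fun h => hne <| by
    have hy0 : y = 0 := coeffMap_subtype_injective A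
      ((congrArg Subtype.val h).trans (map_zero (coeffMap A.subtype)).symm)
    rw [hy0, map_zero]
  have hfb0 : fb ≠ 0 := fun h => hne (congrArg Subtype.val h)
  obtain ⟨z, hz, hzk⟩ := exists_norm_lift (π := π) ι hℓN hα hfin hdeg ζ hζ hπζ y hy
  -- the reduced norm inside `k(X₀(N))`
  set G := coeffAut N φ with hG
  set zb : modularFunctionFieldFullC k N := (G⁻¹ • fb) ^ ℓ * (G • fb) with hzb
  have hfrob : (φ : k →+* k) = frobenius k ℓ := RingHom.ext hφ
  have hroot : qExpand k ℓ (coeffMap π y) =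
      coeffMap (φ.symm : k →+* k) (coeffMap π y) ^ ℓ := by
    rw [laurentSeries_pow_char (k := k) ℓ (coeffMap (φ.symm : k →+* k) (coeffMap π y)),
      ← hfrob, coeffMap_coeffMap (φ : k →+* k),
      coeffMap_congr (g := RingHom.id k) (RingHom.ext φ.apply_symm_apply), coeffMap_id]
  have hzb' : coeffMap π z = (zb : LaurentSeries k) := by
    rw [hzk, hzb, MulMemClass.coe_mul, SubmonoidClass.coe_pow, hG, ← coeffAut_symm,
      coe_coeffAut_smul, coe_coeffAut_smul, hfb, hroot, hfrob]
  have hinv0 : G⁻¹ • fb ≠ 0 := (smul_ne_zero_iff_ne _).mpr hfb0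
  have hzb0 : zb ≠ 0 := mul_ne_zero (pow_ne_zero _ hinv0) ((smul_ne_zero_iff_ne _).mpr hfb0)
  have hzmem : coeffMap A.subtype z ∈ laurentBaseChange L (modularFunctionFieldFull N) := by
    rw [hz]; exact SetLike.coe_mem _
  have hE : ∀ P, heckeDivBar hα hβ D P = P.ord
      (⟨coeffMap A.subtype z, hzmem⟩ : laurentBaseChange L (modularFunctionFieldFull N)) := by
    intro P
    rw [heckeDivBar, correspondence_apply_eq_ord _ _ hβ hα hfin hNF hf0 hDy]
    exact congrArg P.ord (Subtype.ext hz.symm)
  have hDb : ∀ Q, Finsupp.mapDomain r D Q = Q.ord fb := hr.2 y hy hyk hne D hDy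
  ext Q
  have o1 : Q.ord (G • fb) = (G⁻¹ • Q).ord fb := by
    have h := SemilinearAut.ord_smul G (G⁻¹ • Q) fb
    rwa [smul_inv_smul] at h
  have o2 : Q.ord (G⁻¹ • fb) = (G • Q).ord fb := by
    have h := SemilinearAut.ord_smul G⁻¹ (G • Q) fb
    rwa [inv_smul_smul] at h
  rw [hr.2 z hzmem (hzb' ▸ zb.2) (fun h => hzb0 (Subtype.ext (hzb'.symm.trans h))) _ hE Q,
    Finsupp.add_apply, Finsupp.smul_apply, SemilinearAut.divisor_smul_apply,
    SemilinearAut.divisor_smul_apply, inv_inv, hDb, hDb,
    show (⟨coeffMap π z, hzb' ▸ zb.2⟩ : modularFunctionFieldFullC k N) = zb from Subtype.ext hzb',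
    hzb, Q.ord_mul (pow_ne_zero _ hinv0) ((smul_ne_zero_iff_ne _).mpr hfb0), ← zpow_natCast,
    Q.ord_zpow, nsmul_eq_mul, o1, o2]
  ring

include hφ in
/-- The congruence relation on divisors of degree zero. -/
theorem mapDomain_heckeDivBar (ι : L →+* ℂ) (hℓN : ¬ ℓ ∣ N)
    (hα : HeckeAlphaBarIntegral L N ℓ) (hβ : HeckeBetaBarIntegral L N ℓ)
    (hfin : FiniteAlong L (heckeAlphaBar L N ℓ))
    (hNF : NormFormulaAlong L (heckeAlphaBar L N ℓ) hfin)
    (hdeg : finrankAlong L (heckeAlphaBar L N ℓ) = ℓ + 1) (ζ : Aˣ) (hζ : IsPrimitiveRoot ζ ℓ)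
    (hπζ : π (ζ : A) = 1) (hr : IsPlaceReductionAlong A π N r)
    (hgen : PrincipalGeneratedByIntegral A π N)
    (hdiv : ∀ n : ℕ, n ≠ 0 → ∀ z : Pic0 L (laurentBaseChange L (modularFunctionFieldFull N)),
      ∃ y, n • y = z)
    (D : Divisor L (laurentBaseChange L (modularFunctionFieldFull N)))
    (hD : D ∈ Divisor.degZero (K := L) (F := laurentBaseChange L (modularFunctionFieldFull N))) :
    Finsupp.mapDomain r (heckeDivBar hα hβ D) =
      coeffAut N φ • Finsupp.mapDomain r D +
        ℓ • ((coeffAut N φ)⁻¹ • Finsupp.mapDomain r D) := by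
  let Δ : Divisor L (laurentBaseChange L (modularFunctionFieldFull N)) →+
      Divisor k (modularFunctionFieldFullC k N) :=
    (reductionDivAlong r).comp (heckeDivBar hα hβ) -
      ((DistribSMul.toAddMonoidHom _ (coeffAut N φ)).comp (reductionDivAlong r) +
        ℓ • (DistribSMul.toAddMonoidHom _ (coeffAut N φ)⁻¹).comp (reductionDivAlong r))
  have happ : ∀ E, Δ E = Finsupp.mapDomain r (heckeDivBar hα hβ E) -
      (coeffAut N φ • Finsupp.mapDomain r E +
        ℓ • ((coeffAut N φ)⁻¹ • Finsupp.mapDomain r E)) := fun E => rfl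
  have hprin : ∀ E ∈ Divisor.principal (K := L)
      (F := laurentBaseChange L (modularFunctionFieldFull N)), Δ E = 0 := by
    intro E hE
    have hE' := hgen hE
    clear hE
    induction hE' using AddSubgroup.closure_induction with
    | mem E hE =>
      rw [happ, mapDomain_heckeDivBar_of_integral φ hφ ι hℓN hα hβ hfin hNF hdeg ζ hζ hπζ hr hE,
        sub_self]
    | zero => exact map_zero Δ
    | add E E' _ _ hE hE' => rw [map_add, hE, hE', add_zero]
    | neg E _ hE => rw [map_neg, hE, neg_zero]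
  exact sub_eq_zero.mp ((happ D).symm.trans (eq_zero_on_degZero Δ hprin hdiv D hD))

end Reduction

end Fermat.Agent.RED.Spec
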