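import Fermat.Agent.RED.Specialization.Quotient
import Fermat.Agent.RED.Specialization.Congruence
import Fermat.Agent.RED.X0PlaceReduction
import Fermat.Agent.HK.HeckeFinal
import Fermat.Agent.MW.DivisibleJZero

/-!
# Eichler–Shimura at a good prime, in the form `SpecializationExists`
-/

set_option autoImplicit false
set_option linter.style.haveILetI false

noncomputable section

namespace Fermat.Agent.RED.Spec

open ModularCurve AlgebraicCurve

variable {N ℓ : ℕ} [NeZero N] {A : ValuationSubring (AlgebraicClosure ℚ)}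

theorem exists_primitiveRoot_valuationSubring (hℓ : ℓ.Prime) (hA : A.LiesOverPrime ℓ) :
    ∃ ζ : Aˣ, IsPrimitiveRoot ζ ℓ ∧ IsLocalRing.residue A (ζ : A) = 1 := by
  haveI := Fact.mk hℓ
  haveI := Galois.place_charP_residueField hA hℓ
  haveI : NeZero (ℓ : AlgebraicClosure ℚ) := ⟨Nat.cast_ne_zero.mpr hℓ.ne_zero⟩
  obtain ⟨z, hz⟩ := HasEnoughRootsOfUnity.exists_primitiveRoot (AlgebraicClosure ℚ) ℓ
  have hzA : z ∈ A := by
    rcases A.mem_or_inv_mem z with h | h
    · exact h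
    · have hinv : z⁻¹ ^ (ℓ - 1) = z := by
        have h1 : z⁻¹ ^ (ℓ - 1) * z⁻¹ = 1 := by
          rw [← pow_succ, Nat.sub_add_cancel hℓ.one_le, inv_pow, hz.pow_eq_one, inv_one]
        exact eq_of_mul_inv_eq_one h1
      exact hinv ▸ pow_mem h _
  have hz' : IsPrimitiveRoot (⟨z, hzA⟩ : A) ℓ :=
    IsPrimitiveRoot.of_map_of_injective (f := A.subtype) hz Subtype.coe_injective
  obtain ⟨u, hu⟩ := hz'.isUnit hℓ.ne_zero
  refine ⟨u, IsPrimitiveRoot.coe_units_iff.mp (hu ▸ hz'), ?_⟩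
  refine sub_eq_zero.mp (eq_zero_of_pow_eq_zero (n := ℓ) ?_)
  rw [sub_pow_char, ← map_pow, hu, hz'.pow_eq_one, map_one, one_pow, sub_self]

variable (hℓ : ℓ.Prime) (hN : ¬ℓ ∣ N) (hA : A.LiesOverPrime ℓ) (hlift : X0Lift hℓ hN hA)

include hlift in
/-- The congruence relation `r ∘ T_ℓ = F ∘ r + ℓ F⁻¹ ∘ r` on `J₀(N)`. -/
theorem reductionModL_heckeOperatorBar (z : JZero N) :
    reductionModL A N (heckeOperatorBar N ⟨ℓ, hℓ⟩ z) =
      coeffAut N (Galois.placeFrobeniusEquiv hA hℓ) • reductionModL A N z +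
        ℓ • ((coeffAut N (Galois.placeFrobeniusEquiv hA hℓ))⁻¹ • reductionModL A N z) := by
  haveI := Fact.mk hℓ
  haveI : NeZero ℓ := ⟨hℓ.ne_zero⟩
  haveI := Galois.place_charP_residueField hA hℓ
  haveI := HK.Corr.hasPrincipalDivisors_level (AlgebraicClosure ℚ) (N * ℓ)
  have hD := HK.Corr.degreeInput (AlgebraicClosure ℚ)
  obtain ⟨ζ, hζ, hπζ⟩ := exists_primitiveRoot_valuationSubring (A := A) hℓ hA
  have h := reductionInputsModL hℓ hN hA hlift
  have hα := HK.Corr.heckeAlphaBarIntegral_of N ℓ hD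
  have hβ := HK.Corr.heckeBetaBarIntegral_of N ℓ hD
  have hfin := HK.Corr.finiteAlong_heckeAlphaBar N ℓ hD
  have hNF := HK.Corr.normFormulaAlong_heckeAlphaBar N ℓ hD
  obtain ⟨D, rfl⟩ := Pic0.mk_surjective z
  rw [heckeOperatorBar_apply,
    heckeOperatorAlong_eq hα hβ (HK.Corr.fundamentalIdentityAlong_heckeBetaBar N ℓ hD) hfin hNF,
    heckePic0Bar, Pic0.correspondence_mk, reductionModL_mk h, reductionModL_mk h,
    SemilinearAut.pic0_smul_mk, SemilinearAut.pic0_smul_mk]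
  refine Eq.trans ?_ (congrArg (Pic0.mk _ + ·)
    (map_nsmul (QuotientAddGroup.mk' _) ℓ _))
  refine Eq.trans ?_ (Pic0.mk_add _ _)
  refine congrArg Pic0.mk (Subtype.ext ?_)
  exact mapDomain_heckeDivBar (Galois.placeFrobeniusEquiv hA hℓ) (fun _ => rfl)
    ((IsAlgClosed.lift : AlgebraicClosure ℚ →ₐ[ℚ] ℂ).toRingHom) hN hα hβ hfin hNF
    (HK.Corr.finrankAlong_heckeAlphaBar_of_not_dvd N ℓ hD hℓ hN) ζ hζ hπζ
    (isPlaceReductionModL_placeReductionModL h) h.choose_spec.2
    (fun _ hn z => MW.exists_nsmul_eq_jzero N hn z) D.1 D.2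

include hlift in
/-- The Eichler–Shimura relation after reduction. -/
theorem reductionModL_frobenius_quadratic (σ : AlgebraicClosure ℚ ≃ₐ[ℚ] AlgebraicClosure ℚ)
    (hσ : A.IsFrobeniusAt σ ℓ) (x : JZero N) :
    reductionModL A N (σ • σ • x) - reductionModL A N (heckeOperatorBar N ⟨ℓ, hℓ⟩ (σ • x)) +
      ℓ • reductionModL A N x = 0 := by
  rw [reductionModL_heckeOperatorBar hℓ hN hA hlift,
    reductionModL_frobenius hℓ hN hA hlift hσ (σ • x),
    reductionModL_frobenius hℓ hN hA hlift hσ x, inv_smul_smul]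
  abel

include hℓ hN hA hlift in
/-- The specialization at `A`, given injectivity of reduction on `p`-power torsion. -/
theorem exists_specialization_jZero (p : ℕ) (hcomm : HeckeOperatorsCommuteBar N)
    (hinj : ∀ x : JZero N, (∃ n : ℕ, p ^ n • x = 0) → reductionModL A N x = 0 → x = 0) :
    letI := heckeModuleBar N
    ∀ (_ : SMulCommClass (AlgebraicClosure ℚ ≃ₐ[ℚ] AlgebraicClosure ℚ) HeckeAlg (JZero N)),
    ∃ (J' : Type) (_ : AddCommGroup J') (_ : Module HeckeAlg J') (sp : JZero N →+ J')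
      (F : J' →+ J'),
      IsSpecialization (K := ℚ) p (JZero N) J' A ℓ sp F ∧ SpecialFibreRelation J' ℓ hℓ F := by
  letI := heckeModuleBar N
  intro _
  obtain ⟨σ, hσ⟩ := Galois.exists_isFrobeniusAt hA hℓ
  refine exists_specialization (K := ℚ) p ℓ hℓ A (reductionModL A N) σ
    (DistribSMul.toAddMonoidHom _ (coeffAut N (Galois.placeFrobeniusEquiv hA hℓ))) ?_ ?_ hσ ?_ hinj
  · exact fun τ hτ x => reductionModL_inertia hℓ hN hA hlift hτ x
  · exact fun τ hτ x => reductionModL_frobenius hℓ hN hA hlift hτ x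
  · intro x
    rw [heckeModuleBar_heckeGen_smul hcomm]
    exact reductionModL_frobenius_quadratic hℓ hN hA hlift σ hσ x

end Fermat.Agent.RED.Spec
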