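import Fermat.Agent.RED.CoordData
import Fermat.Agent.FF.Basic

/-!
# The moving lemma for additive maps on divisors
-/

set_option autoImplicit false

noncomputable section

namespace Fermat.Agent.RED.Spec

open AlgebraicCurve

section Test

variable {K E : Type*} [Field K] [Field E] [Algebra K E] {x : E}

theorem exists_coordRing_ord_isolate
    (hsep : ∀ v w : Place K E, x ∈ v.toValuationSubring → x ∈ w.toValuationSubring → v ≠ w →
      ∃ s ∈ coordRing K x, s ≠ 0 ∧ 0 < v.ord s ∧ w.ord s = 0)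
    (S : Finset (Place K E)) (hS : ∀ Q ∈ S, x ∈ Q.toValuationSubring) (R : Place K E)
    (hR : x ∈ R.toValuationSubring) :
    ∃ h ∈ coordRing K x, h ≠ 0 ∧ R.ord h = 0 ∧ ∀ Q ∈ S, Q ≠ R → 0 < Q.ord h := by
  classical
  induction S using Finset.induction with
  | empty => exact ⟨1, one_mem _, one_ne_zero, R.ord_one, by simp⟩
  | insert a S ha ih =>
    obtain ⟨h, hh, h0, hR0, hpos⟩ := ih fun Q hQ => hS Q (Finset.mem_insert_of_mem hQ)
    have haS := hS a (Finset.mem_insert_self _ _)
    by_cases haR : a = R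
    · refine ⟨h, hh, h0, hR0, fun Q hQ hne => hpos Q ?_ hne⟩
      exact (Finset.mem_insert.mp hQ).resolve_left (haR ▸ hne)
    obtain ⟨s, hs, hs0, hsa, hsR⟩ := hsep a R haS hR haR
    refine ⟨s * h, mul_mem hs hh, mul_ne_zero hs0 h0, by rw [R.ord_mul hs0 h0, hsR, hR0]; rfl,
      fun Q hQ hne => ?_⟩
    rw [Q.ord_mul hs0 h0]
    have hQS := hS Q hQ
    have h1 := ord_nonneg_of_mem Q (mem_place_of_mem_coordRing K x Q hQS hs)
    have h2 := ord_nonneg_of_mem Q (mem_place_of_mem_coordRing K x Q hQS hh)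
    rcases Finset.mem_insert.mp hQ with rfl | hQ'
    · omega
    · have := hpos Q hQ' hne
      omega

/-- A function integral over `K[x]` with a simple zero at `R` and no zero at the rest of `S`. -/
theorem exists_coordRing_test
    (hord : ∀ v : Place K E, x ∈ v.toValuationSubring → ∃ t ∈ coordRing K x, v.ord t = 1)
    (hsep : ∀ v w : Place K E, x ∈ v.toValuationSubring → x ∈ w.toValuationSubring → v ≠ w →
      ∃ s ∈ coordRing K x, s ≠ 0 ∧ 0 < v.ord s ∧ w.ord s = 0)
    (S : Finset (Place K E)) (hS : ∀ Q ∈ S, x ∈ Q.toValuationSubring) (R : Place K E)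
    (hR : x ∈ R.toValuationSubring) :
    ∃ g ∈ coordRing K x, g ≠ 0 ∧ R.ord g = 1 ∧ ∀ Q ∈ S, Q ≠ R → Q.ord g = 0 := by
  classical
  set T := insert R S with hT
  have hTx : ∀ Q ∈ T, x ∈ Q.toValuationSubring := by
    intro Q hQ
    rcases Finset.mem_insert.mp hQ with rfl | hQ'
    · exact hR
    · exact hS Q hQ'
  choose h hh h0 hhQ hpos using fun Q (hQ : Q ∈ T) =>
    exists_coordRing_ord_isolate hsep T hTx Q (hTx Q hQ)
  obtain ⟨t, ht, ht1⟩ := hord R hR
  have ht0 : t ≠ 0 := fun hh0 => by simp [hh0] at ht1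
  have hRT : R ∈ T := Finset.mem_insert_self _ _
  set a := t * h R hRT ^ 2 with ha
  set w := ∑ Q ∈ (T.erase R).attach, h Q.1 (Finset.mem_of_mem_erase Q.2) ^ 2 with hw
  have ha0 : a ≠ 0 := mul_ne_zero ht0 (pow_ne_zero _ (h0 _ _))
  have hamem : a ∈ coordRing K x := mul_mem ht (pow_mem (hh _ _) _)
  have hwmem : w ∈ coordRing K x := sum_mem fun Q _ => pow_mem (hh _ _) _
  -- at `R`
  have haR : R.ord a = 1 := by
    rw [R.ord_mul ht0 (pow_ne_zero _ (h0 _ _)), FF.ord_pow, hhQ, ht1]; simp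
  have hwR : w ∈ FF.ordGE R 2 := by
    refine sum_mem fun Q _ => FF.mem_ordGE_of_le R ?_
    rw [FF.ord_pow]
    have := hpos Q.1 (Finset.mem_of_mem_erase Q.2) R hRT (Finset.ne_of_mem_erase Q.2).symm
    push_cast
    omega
  have hwR' : w = 0 ∨ R.ord a < R.ord w := by
    rcases (FF.mem_ordGE R).mp hwR with h' | h'
    · exact Or.inl h'
    · exact Or.inr (by omega)
  obtain ⟨hne, hordR⟩ := FF.add_ne_zero_and_ord_eq_of_lt R ha0 hwR'
  refine ⟨a + w, add_mem hamem hwmem, hne, hordR.trans haR, fun Q hQ hQR => ?_⟩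
  have hQT : Q ∈ T := Finset.mem_insert_of_mem hQ
  -- at `Q`: only the term of `Q` survives
  have hmem : (⟨Q, Finset.mem_erase.mpr ⟨hQR, hQT⟩⟩ : {y // y ∈ T.erase R}) ∈
      (T.erase R).attach := Finset.mem_attach _ _
  rw [hw, ← Finset.add_sum_erase _ _ hmem, ← add_assoc, add_comm a, add_assoc]
  refine (FF.add_ne_zero_and_ord_eq_of_lt Q (pow_ne_zero _ (h0 _ _)) ?_).2.trans ?_
  · rw [FF.ord_pow, hhQ, mul_zero]
    have hsum : a + ∑ Q' ∈ (T.erase R).attach.erase ⟨Q, Finset.mem_erase.mpr ⟨hQR, hQT⟩⟩,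
        h Q'.1 (Finset.mem_of_mem_erase Q'.2) ^ 2 ∈ FF.ordGE Q 1 := by
      refine add_mem (FF.mem_ordGE_of_le Q ?_) (sum_mem fun Q' hQ' => FF.mem_ordGE_of_le Q ?_)
      · rw [Q.ord_mul ht0 (pow_ne_zero _ (h0 _ _)), FF.ord_pow]
        have h1 := hpos R hRT Q hQT hQR
        have h2 := ord_nonneg_of_mem Q (mem_place_of_mem_coordRing K x Q (hTx Q hQT) ht)
        push_cast
        omega
      · rw [FF.ord_pow]
        have hne' : Q ≠ Q'.1 := fun he =>
          (Finset.mem_erase.mp hQ').1 (Subtype.ext he.symm)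
        have := hpos Q'.1 (Finset.mem_of_mem_erase Q'.2) Q hQT hne'
        push_cast
        omega
    rcases (FF.mem_ordGE Q).mp hsum with h' | h'
    · exact Or.inl h'
    · exact Or.inr (by omega)
  · rw [FF.ord_pow, hhQ, mul_zero]

end Test

section Vanishing

variable {K F k F' : Type*} [Field K] [Field F] [Algebra K F] [Field k] [Field F'] [Algebra k F']

/-- The moving lemma: an additive map on divisors which kills, for every `P`, a divisor with
coefficient one at `P` and whose other places have images in disjoint classes, is zero. -/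
theorem eq_zero_of_moving (Δ : Divisor K F →+ Divisor k F') (U : Place K F → Set (Place k F'))
    (hsupp : ∀ P Q, Δ (Finsupp.single P 1) Q ≠ 0 → Q ∈ U P)
    (hmove : ∀ P, ∃ D : Divisor K F, Δ D = 0 ∧ D P = 1 ∧
      ∀ P', P' ≠ P → D P' ≠ 0 → Disjoint (U P) (U P')) : Δ = 0 := by
  classical
  have key : ∀ P, Δ (Finsupp.single P 1) = 0 := by
    intro P
    obtain ⟨D, hD, hDP, hdis⟩ := hmove P
    ext Q
    rw [Finsupp.zero_apply]
    by_contra hQ
    have hU := hsupp P Q hQ
    have hrest : ∀ P' ∈ D.support, P' ≠ P → Δ (Finsupp.single P' (D P')) Q = 0 := by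
      intro P' hP' hne
      rw [← mul_one (D P'), ← smul_eq_mul, ← Finsupp.smul_single, map_zsmul, Finsupp.smul_apply]
      by_contra h
      have hU' : Q ∈ U P' := hsupp P' Q fun h0 => h (by rw [h0, smul_zero])
      exact Set.disjoint_left.mp (hdis P' hne (Finsupp.mem_support_iff.mp hP')) hU hU'
    have hPmem : P ∈ D.support := Finsupp.mem_support_iff.mpr (by rw [hDP]; exact one_ne_zero)
    have hsum : Δ D Q = Δ (Finsupp.single P 1) Q := by
      conv_lhs => rw [← D.sum_single]
      rw [Finsupp.sum, map_sum, Finsupp.finsetSum_apply, Finset.sum_eq_single P, hDP]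
      · exact hrest
      · exact fun h => absurd hPmem h
    rw [hD, Finsupp.zero_apply] at hsum
    exact hQ hsum.symm
  refine Finsupp.addHom_ext fun P n => ?_
  rw [← mul_one n, ← smul_eq_mul, ← Finsupp.smul_single, map_zsmul, key, smul_zero]
  rfl

end Vanishing

end Fermat.Agent.RED.Spec
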