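import Fermat.Prelude.Def_HeckeGalois_EichlerShimura

/-!
# From a reduction map to `SpecializationExists`

Given an additive map `r` out of `J` (not assumed Hecke equivariant), the quotient of `J` by the
largest Hecke-stable subgroup of `ker r` carries a Hecke action for free, and inherits the Frobenius
and the congruence relation as soon as they hold after applying `r`.
-/

set_option autoImplicit false

noncomputable section

namespace Fermat.Agent.RED.Spec

open ModularCurve

variable {J M : Type*} [AddCommGroup J] [Module HeckeAlg J] [AddCommGroup M]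

/-- The largest Hecke-stable subgroup of the kernel of `r`. -/
def heckeCore (r : J →+ M) : Submodule HeckeAlg J where
  carrier := {x | ∀ T : HeckeAlg, r (T • x) = 0}
  zero_mem' T := by rw [smul_zero, map_zero]
  add_mem' hx hy T := by rw [smul_add, map_add, hx T, hy T, add_zero]
  smul_mem' S x hx T := by rw [← mul_smul]; exact hx (T * S)

theorem mem_heckeCore {r : J →+ M} {x : J} :
    x ∈ heckeCore r ↔ ∀ T : HeckeAlg, r (T • x) = 0 := Iff.rfl

theorem r_eq_zero_of_mem_heckeCore {r : J →+ M} {x : J} (hx : x ∈ heckeCore r) : r x = 0 := by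
  simpa using hx 1

theorem quotient_mk_eq_of_forall {r : J →+ M} {x y : J}
    (h : ∀ T : HeckeAlg, r (T • x) = r (T • y)) :
    Submodule.Quotient.mk (p := heckeCore r) x = Submodule.Quotient.mk y := by
  rw [Submodule.Quotient.eq, mem_heckeCore]
  intro T
  rw [smul_sub, map_sub, h T, sub_self]

/-- `SpecializationExists` at one place, from a reduction map `r` and a chosen Frobenius `σ`. -/
theorem exists_specialization {K L : Type*} [Field K] [Field L] [Algebra K L]
    {J : Type} [AddCommGroup J] [Module HeckeAlg J] [DistribMulAction (L ≃ₐ[K] L) J]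
    [SMulCommClass (L ≃ₐ[K] L) HeckeAlg J] {M : Type*} [AddCommGroup M]
    (p ℓ : ℕ) (hℓ : ℓ.Prime) (A : ValuationSubring L) (r : J →+ M) (σ : L ≃ₐ[K] L)
    (F₀ : M →+ M)
    (hinertia : ∀ τ ∈ A.inertiaSubgroupIn K, ∀ x : J, r (τ • x) = r x)
    (hfrob : ∀ τ : L ≃ₐ[K] L, A.IsFrobeniusAt τ ℓ → ∀ x : J, r (τ • x) = F₀ (r x))
    (hσ : A.IsFrobeniusAt σ ℓ)
    (hrel : ∀ x : J, r (σ • σ • x) - r (heckeGen ⟨ℓ, hℓ⟩ • (σ • x)) + ℓ • r x = 0)
    (hinj : ∀ x : J, (∃ n : ℕ, p ^ n • x = 0) → r x = 0 → x = 0) :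
    ∃ (J' : Type) (_ : AddCommGroup J') (_ : Module HeckeAlg J') (sp : J →+ J')
      (F : J' →+ J'),
      IsSpecialization (K := K) p J J' A ℓ sp F ∧ SpecialFibreRelation J' ℓ hℓ F := by
  have hstab : ∀ x ∈ heckeCore r, σ • x ∈ heckeCore r := fun x hx T => by
    rw [← smul_comm σ T x, hfrob σ hσ, hx T, map_zero]
  let f : J →ₗ[HeckeAlg] J :=
    { toFun := fun x => σ • x
      map_add' := smul_add σ
      map_smul' := fun T x => smul_comm σ T x }
  let F : (J ⧸ heckeCore r) →ₗ[HeckeAlg] (J ⧸ heckeCore r) :=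
    (heckeCore r).mapQ (heckeCore r) f fun x hx => hstab x hx
  refine ⟨J ⧸ heckeCore r, inferInstance, inferInstance, (heckeCore r).mkQ.toAddMonoidHom,
    F.toAddMonoidHom, ⟨?_, ?_, ?_, ?_⟩, ?_⟩
  · intro T x
    exact map_smul (heckeCore r).mkQ T x
  · intro τ hτ x
    refine quotient_mk_eq_of_forall fun T => ?_
    rw [← smul_comm τ T x, hinertia τ hτ]
  · intro τ hτ x
    show Submodule.Quotient.mk (τ • x) = F (Submodule.Quotient.mk x)
    simp only [F, Submodule.mapQ_apply]
    refine quotient_mk_eq_of_forall fun T => ?_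
    rw [← smul_comm τ T x]
    show r (τ • T • x) = r (T • σ • x)
    rw [← smul_comm σ T x, hfrob τ hτ, hfrob σ hσ]
  · intro x hx h0
    exact hinj x hx (r_eq_zero_of_mem_heckeCore ((Submodule.Quotient.mk_eq_zero _).mp h0))
  · intro y
    obtain ⟨x, rfl⟩ := Submodule.Quotient.mk_surjective _ y
    show F (F (Submodule.Quotient.mk x)) - heckeGen ⟨ℓ, hℓ⟩ • F (Submodule.Quotient.mk x)
      + ℓ • Submodule.Quotient.mk x = 0
    simp only [F, Submodule.mapQ_apply]
    rw [← Submodule.Quotient.mk_smul, ← Submodule.Quotient.mk_smul, ← Submodule.Quotient.mk_sub,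
      ← Submodule.Quotient.mk_add, Submodule.Quotient.mk_eq_zero]
    intro T
    show r (T • (σ • σ • x - heckeGen ⟨ℓ, hℓ⟩ • σ • x + ℓ • x)) = 0
    rw [smul_add, smul_sub, map_add, map_sub, ← smul_comm σ T (σ • x), ← smul_comm σ T x,
      smul_comm T (ℓ : ℕ) x, map_nsmul, smul_comm T (heckeGen ⟨ℓ, hℓ⟩) (σ • x),
      ← smul_comm σ T x]
    exact hrel (T • x)

end Fermat.Agent.RED.Spec
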