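import Fermat.Agent.MF.JExpansion
import Mathlib.Algebra.MvPolynomial.Eval

/-!
# The partial Atkin–Lehner substitution on polynomial relations between the `j(d τ)`

For a prime `ℓ ∤ N`, every polynomial relation between the `j(q^d)`, `d ∣ N ℓ`, survives the
exchange `d ↔ ℓ d` of the indices.
-/

set_option autoImplicit false

noncomputable section

namespace Fermat.Agent.RED.Spec

open ModularCurve Fermat.Agent.MF UpperHalfPlane
open scoped MatrixGroups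
open EisensteinSeries ModularForm

/-- Index set of the generators of level `M`. -/
abbrev DivIdx (M : ℕ) : Type := {d : ℕ // 0 < d ∧ d ∣ M}

/-- The generator `j(q^d)` over the constants `K`. -/
def genSer (K : Type*) [CommRing K] {M : ℕ} (d : DivIdx M) : LaurentSeries K :=
  haveI : NeZero d.1 := ⟨d.2.1.ne'⟩
  qExpand K d.1 (jqModC K)

/-- The function `j(d τ)`. -/
def genFun {M : ℕ} (d : DivIdx M) : ℍ → ℂ := fun τ => kleinJ (scaleH d.1 τ)

theorem exists_qL_div_aeval {M : ℕ} (P : MvPolynomial (DivIdx M) ℂ) :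
    ∃ u v : ℍ → ℂ, u ∈ qFunctions ∧ v ∈ qFunctions ∧ (∀ τ, v τ ≠ 0) ∧
      MvPolynomial.aeval (genSer ℂ) P = qL u / qL v ∧
      ∀ τ, MvPolynomial.aeval (fun d => genFun d τ) P = u τ / v τ := by
  have hne : ∀ {v : ℍ → ℂ}, v ∈ qFunctions → (∀ τ, v τ ≠ 0) → qL v ≠ 0 := fun hvm hv h =>
    hv UpperHalfPlane.I (congrFun ((qL_eq_zero_iff hvm).mp h) _)
  induction P using MvPolynomial.induction_on with
  | C c =>
    refine ⟨c • (1 : ℍ → ℂ), 1, qFunctions.smul_mem qFunctions.one_mem c, qFunctions.one_mem,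
      fun _ => one_ne_zero, ?_, fun τ => ?_⟩
    · rw [MvPolynomial.aeval_C, qL_smul c qFunctions.one_mem, qL_one, mul_one, div_one]
    · simp
  | add p q hp hq =>
    obtain ⟨u, v, hu, hv, hv0, h1, h2⟩ := hp
    obtain ⟨u', v', hu', hv', hv0', h1', h2'⟩ := hq
    refine ⟨u * v' + v * u', v * v', add_mem (mul_mem hu hv') (mul_mem hv hu'), mul_mem hv hv',
      fun τ => mul_ne_zero (hv0 τ) (hv0' τ), ?_, fun τ => ?_⟩
    · rw [map_add, h1, h1', qL_add (mul_mem hu hv') (mul_mem hv hu'), qL_mul hu hv',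
        qL_mul hv hu', qL_mul hv hv', div_add_div _ _ (hne hv hv0) (hne hv' hv0')]
    · rw [map_add, h2, h2', div_add_div _ _ (hv0 τ) (hv0' τ)]
      simp
  | mul_X p d hp =>
    obtain ⟨u, v, hu, hv, hv0, h1, h2⟩ := hp
    haveI : NeZero d.1 := ⟨d.2.1.ne'⟩
    have hE := mem_qFunctions_comp_scaleH (pow_mem mem_qFunctions_E4 3) d.1
    have hD := mem_qFunctions_comp_scaleH mem_qFunctions_discriminant d.1
    refine ⟨u * (((⇑E₄ : ℍ → ℂ) ^ 3) ∘ scaleH d.1), v * (ModularForm.discriminant ∘ scaleH d.1),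
      mul_mem hu hE, mul_mem hv hD,
      fun τ => mul_ne_zero (hv0 τ) (ModularForm.discriminant_ne_zero _), ?_, fun τ => ?_⟩
    · rw [map_mul, MvPolynomial.aeval_X, h1, genSer,
        show qExpand ℂ d.1 (jqModC ℂ) = jdC d.1 from rfl, jdC_eq_div, qL_mul hu hE, qL_mul hv hD,
        mul_div_mul_comm]
    · rw [map_mul, MvPolynomial.aeval_X, h2]
      show _ * kleinJ (scaleH d.1 τ) = (u τ * _) / (v τ * _)
      rw [mul_div_mul_comm]
      rfl

/-- A relation between the `q`-expansions is a relation between the functions. -/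
theorem aeval_genSer_eq_zero_iff {M : ℕ} (P : MvPolynomial (DivIdx M) ℂ) :
    MvPolynomial.aeval (genSer ℂ) P = 0 ↔
      ∀ τ, MvPolynomial.aeval (fun d => genFun d τ) P = 0 := by
  obtain ⟨u, v, hu, hv, hv0, h1, h2⟩ := exists_qL_div_aeval P
  have hvL : qL v ≠ 0 := fun h =>
    hv0 UpperHalfPlane.I (congrFun ((qL_eq_zero_iff hv).mp h) _)
  simp only [h1, h2, div_eq_zero_iff, hvL, or_false, qL_eq_zero_iff hu, hv0]
  exact ⟨fun h τ => congrFun h τ, fun h => funext h⟩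

section Geometry

theorem kleinJ_slInv (γ : SL(2, ℤ)) (z : ℍ) : kleinJ (γ • z) = kleinJ z := by
  have h4 : E₄ (γ • z) = denom γ z ^ (4 : ℤ) * E₄ z :=
    SlashInvariantForm.slash_action_eqn'' E₄ (Γ := 𝒮ℒ) (MonoidHom.mem_range.mpr ⟨γ, rfl⟩) z
  have hΔ : ModularForm.discriminant (γ • z) = denom γ z ^ (12 : ℤ) * ModularForm.discriminant z :=
    SlashInvariantForm.slash_action_eqn'' CuspForm.discriminant (Γ := 𝒮ℒ)
      (MonoidHom.mem_range.mpr ⟨γ, rfl⟩) z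
  have := denom_ne_zero γ z
  simp only [kleinJ, h4, hΔ]
  field_simp

/-- An element of `SL(2, ℤ)` from its entries. -/
def slMk (a b c e : ℤ) (h : a * e - b * c = 1) : SL(2, ℤ) :=
  ⟨!![a, b; c, e], by rw [Matrix.det_fin_two_of]; exact h⟩

theorem coe_slMk_smul (a b c e : ℤ) (h : a * e - b * c = 1) (τ : ℍ) :
    ((slMk a b c e h • τ : ℍ) : ℂ) = ((a : ℂ) * τ + (b : ℂ)) / ((c : ℂ) * τ + (e : ℂ)) := by
  rw [coe_specialLinearGroup_apply]
  simp [slMk]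

theorem jFun_scale_smul (d : ℕ) (hd : d ≠ 0) (a b c e : ℤ) (h : a * e - b * ((d : ℤ) * c) = 1)
    (τ : ℍ) :
    kleinJ (ModularForm.heckeDiagMatrix d • slMk a b ((d : ℤ) * c) e h • τ) =
      kleinJ (ModularForm.heckeDiagMatrix d • τ) := by
  rw [← kleinJ_slInv (slMk a ((d : ℤ) * b) c e (by linear_combination h))
    (ModularForm.heckeDiagMatrix d • τ)]
  congr 1
  refine UpperHalfPlane.ext ?_
  rw [ModularForm.coe_heckeDiagMatrix_smul hd, coe_slMk_smul, coe_slMk_smul,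
    ModularForm.coe_heckeDiagMatrix_smul hd]
  push_cast
  rw [mul_div_assoc', mul_add]
  congr 1 <;> ring

theorem jFun_scale_scale_smul (ℓ : ℕ) (hℓ : ℓ ≠ 0) (b c w : ℤ) (h : (ℓ : ℤ) * w - b * c = 1)
    (z : ℍ) :
    kleinJ (ModularForm.heckeDiagMatrix ℓ •
        slMk 1 b c ((ℓ : ℤ) * w) (by linear_combination h) •
          ModularForm.heckeDiagMatrix ℓ • z) = kleinJ z := by
  rw [← kleinJ_slInv (slMk (ℓ : ℤ) b c w h) z]
  congr 1
  refine UpperHalfPlane.ext ?_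
  rw [ModularForm.coe_heckeDiagMatrix_smul hℓ, coe_slMk_smul, coe_slMk_smul,
    ModularForm.coe_heckeDiagMatrix_smul hℓ]
  push_cast
  have hℓ' : (ℓ : ℂ) ≠ 0 := Nat.cast_ne_zero.mpr hℓ
  rw [one_mul, mul_div_assoc',
    show (c : ℂ) * ((ℓ : ℂ) * z) + (ℓ : ℂ) * w = (ℓ : ℂ) * ((c : ℂ) * z + w) by ring,
    mul_div_mul_left _ _ hℓ']

theorem heckeDiag_mul_smul (m n : ℕ) [NeZero m] [NeZero n] (τ : ℍ) :
    ModularForm.heckeDiagMatrix (m * n) • τ =
      ModularForm.heckeDiagMatrix m • ModularForm.heckeDiagMatrix n • τ := by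
  refine UpperHalfPlane.ext ?_
  rw [ModularForm.coe_heckeDiagMatrix_smul (NeZero.ne (m * n)),
    ModularForm.coe_heckeDiagMatrix_smul (NeZero.ne m),
    ModularForm.coe_heckeDiagMatrix_smul (NeZero.ne n)]
  push_cast
  ring

end Geometry

section Swap

variable {N ℓ : ℕ}

/-- `d ↔ ℓ d` on the divisors of `N ℓ`. -/
def swapIdx (hℓ : ℓ.Prime) (d : DivIdx (N * ℓ)) : DivIdx (N * ℓ) :=
  if h : d.1 ∣ N then ⟨ℓ * d.1, Nat.mul_pos hℓ.pos d.2.1,
      (mul_dvd_mul_left ℓ h).trans (dvd_of_eq (mul_comm ℓ N))⟩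
  else ⟨d.1 / ℓ, by
      have hd : ℓ ∣ d.1 := by
        by_contra hnd
        exact h ((Nat.Coprime.dvd_mul_right ((hℓ.coprime_iff_not_dvd.mpr hnd).symm)).mp d.2.2)
      exact ⟨Nat.div_pos (Nat.le_of_dvd d.2.1 hd) hℓ.pos, (Nat.div_dvd_of_dvd hd).trans d.2.2⟩⟩

theorem exists_eq_mul_of_not_dvd (hℓ : ℓ.Prime) {d : DivIdx (N * ℓ)} (h : ¬ d.1 ∣ N) :
    ∃ e, d.1 = ℓ * e ∧ e ∣ N ∧ 0 < e := by
  have hd : ℓ ∣ d.1 := by
    by_contra hnd
    exact h ((Nat.Coprime.dvd_mul_right ((hℓ.coprime_iff_not_dvd.mpr hnd).symm)).mp d.2.2)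
  obtain ⟨e, he⟩ := hd
  refine ⟨e, he, ?_, Nat.pos_of_mul_pos_left (he ▸ d.2.1)⟩
  have := d.2.2
  rw [he, mul_comm N ℓ] at this
  exact Nat.dvd_of_mul_dvd_mul_left hℓ.pos this

theorem coe_swapIdx_of_dvd (hℓ : ℓ.Prime) {d : DivIdx (N * ℓ)} (h : d.1 ∣ N) :
    (swapIdx hℓ d).1 = ℓ * d.1 := by
  rw [swapIdx, dif_pos h]

theorem coe_swapIdx_of_mul (hℓ : ℓ.Prime) (hℓN : ¬ ℓ ∣ N) {d : DivIdx (N * ℓ)} {e : ℕ}
    (h : d.1 = ℓ * e) : (swapIdx hℓ d).1 = e := by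
  rw [swapIdx, dif_neg (fun hd => hℓN ((Dvd.intro e h.symm).trans hd))]
  show d.1 / ℓ = e
  rw [h, Nat.mul_div_cancel_left _ hℓ.pos]

theorem swapIdx_swapIdx (hℓ : ℓ.Prime) (hℓN : ¬ ℓ ∣ N) (d : DivIdx (N * ℓ)) :
    swapIdx hℓ (swapIdx hℓ d) = d := by
  refine Subtype.ext ?_
  by_cases h : d.1 ∣ N
  · exact coe_swapIdx_of_mul hℓ hℓN (coe_swapIdx_of_dvd hℓ h)
  · obtain ⟨e, he, heN, -⟩ := exists_eq_mul_of_not_dvd hℓ h
    have h2 := coe_swapIdx_of_mul hℓ hℓN he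
    rw [coe_swapIdx_of_dvd hℓ (h2.symm ▸ heN), h2, he]

variable [NeZero N]

/-- The substitution `τ ↦ W τ` realises the swap on the functions. -/
theorem exists_forall_genFun_swapIdx (hℓ : ℓ.Prime) (hℓN : ¬ ℓ ∣ N) :
    ∃ W : ℍ → ℍ, ∀ (d : DivIdx (N * ℓ)) (τ : ℍ), genFun d (W τ) = genFun (swapIdx hℓ d) τ := by
  haveI : NeZero ℓ := ⟨hℓ.ne_zero⟩
  have hcop : IsCoprime (ℓ : ℤ) (N : ℤ) :=
    (Int.isCoprime_iff_gcd_eq_one.mpr (by exact_mod_cast (hℓ.coprime_iff_not_dvd.mpr hℓN)))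
  obtain ⟨w, v, hwv⟩ := hcop
  have hdet : (1 : ℤ) * ((ℓ : ℤ) * w) - (-v) * (N : ℤ) = 1 := by linear_combination hwv
  let γ : SL(2, ℤ) := slMk 1 (-v) (N : ℤ) ((ℓ : ℤ) * w) hdet
  refine ⟨fun τ => γ • ModularForm.heckeDiagMatrix ℓ • τ, fun d τ => ?_⟩
  show kleinJ (ModularForm.heckeDiagMatrix d.1 • γ • ModularForm.heckeDiagMatrix ℓ • τ) =
    kleinJ (ModularForm.heckeDiagMatrix (swapIdx hℓ d).1 • τ)
  by_cases h : d.1 ∣ N
  · obtain ⟨c, hc⟩ := h
    rw [coe_swapIdx_of_dvd hℓ ⟨c, hc⟩]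
    have hdet' : (1 : ℤ) * ((ℓ : ℤ) * w) - (-v) * ((d.1 : ℤ) * c) = 1 := by
      rw [← Nat.cast_mul, ← hc]; exact hdet
    have key := jFun_scale_smul d.1 d.2.1.ne' 1 (-v) c ((ℓ : ℤ) * w) hdet'
      (ModularForm.heckeDiagMatrix ℓ • τ)
    haveI : NeZero d.1 := ⟨d.2.1.ne'⟩
    rw [mul_comm ℓ d.1, heckeDiag_mul_smul, ← key]
    simp only [γ]
    congr 3
    exact Subtype.ext (by simp [slMk, ← Nat.cast_mul, ← hc])
  · obtain ⟨e, he, ⟨c, hc⟩, he0⟩ := exists_eq_mul_of_not_dvd hℓ h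
    haveI : NeZero e := ⟨he0.ne'⟩
    rw [coe_swapIdx_of_mul hℓ hℓN he, he, heckeDiag_mul_smul]
    -- move `diag(e, 1)` through `γ`
    have key : ModularForm.heckeDiagMatrix e • γ • ModularForm.heckeDiagMatrix ℓ • τ =
        slMk 1 ((e : ℤ) * (-v)) c ((ℓ : ℤ) * w) (by
          have : (N : ℤ) = e * c := by exact_mod_cast hc
          linear_combination hdet + v * this.symm) •
          ModularForm.heckeDiagMatrix ℓ • ModularForm.heckeDiagMatrix e • τ := by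
      refine UpperHalfPlane.ext ?_
      simp only [ModularForm.coe_heckeDiagMatrix_smul (NeZero.ne e), coe_slMk_smul,
        ModularForm.coe_heckeDiagMatrix_smul (NeZero.ne ℓ), γ]
      have : (N : ℂ) = e * c := by exact_mod_cast hc
      push_cast
      rw [this, mul_div_assoc']
      congr 1 <;> ring
    rw [key]
    refine jFun_scale_scale_smul ℓ hℓ.ne_zero ((e : ℤ) * (-v)) c w ?_ _
    have : (N : ℤ) = e * c := by exact_mod_cast hc
    linear_combination hdet + v * this.symm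

/-- Over `ℂ`, relations survive the swap. -/
theorem aeval_genSer_swapIdx (hℓ : ℓ.Prime) (hℓN : ¬ ℓ ∣ N)
    {P : MvPolynomial (DivIdx (N * ℓ)) ℂ} (hP : MvPolynomial.aeval (genSer ℂ) P = 0) :
    MvPolynomial.aeval (genSer ℂ ∘ swapIdx hℓ) P = 0 := by
  obtain ⟨W, hW⟩ := exists_forall_genFun_swapIdx (N := N) hℓ hℓN
  rw [← MvPolynomial.aeval_rename, aeval_genSer_eq_zero_iff]
  intro τ
  rw [MvPolynomial.aeval_rename]
  have := (aeval_genSer_eq_zero_iff P).mp hP (W τ)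
  simp only [hW] at this
  exact this

end Swap

end Fermat.Agent.RED.Spec
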